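import Fermat.Agent.Jac.BigCell.Tensor

/-!
Every point of the big cell is an invertible module over the coordinate ring, as soon as the
coordinate ring is a Dedekind domain over every field.
-/

set_option autoImplicit false
set_option linter.unusedVariables false

noncomputable section

open HahnSeries
open scoped TensorProduct

attribute [local instance 2000] HahnSeries.instAlgebra

namespace Fermat.Agent.Jac

universe u

variable {k : Type u} [Field k] {R : Type u} [CommRing R] [Algebra k R]

namespace Expansion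

variable {E : Expansion k R} {A : Type u} [CommRing A] [Algebra k A]

namespace Cell

variable (c : Cell E A)

theorem expA_mul_mem (r : E.CoordRing A) {w : LaurentSeries A} (hw : w ∈ c.W) :
    E.expA A r * w ∈ c.W := by
  induction r using coordRing_induction E A with
  | h a r =>
    rw [map_smul, E.expA_coordInc, smul_mul_assoc]
    exact c.W.smul_mem _ (c.mul_mem r w hw)
  | hadd x y hx hy => rw [map_add, add_mul]; exact add_mem hx hy

theorem expA_mem (r : E.CoordRing A) : E.expA A r ∈ c.W := by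
  simpa using c.expA_mul_mem r c.one_mem

/-- `W` is spanned over the coordinate ring by boundedly many basis elements. -/
theorem exists_bounded_span : ∃ N : ℕ, 0 < N ∧ ∀ x ∈ c.W, ∃ r : ℕ → E.CoordRing A,
    x = ∑ j ∈ Finset.range N, E.expA A (r j) * c.basis j := by
  classical
  obtain ⟨n₀, hn₀⟩ := E.exists_pole
  refine ⟨n₀ + 1, by omega, ?_⟩
  set P : LaurentSeries A → Prop := fun x => ∃ r : ℕ → E.CoordRing A,
    x = ∑ j ∈ Finset.range (n₀ + 1), E.expA A (r j) * c.basis j
  have hadd : ∀ x y, P x → P y → P (x + y) := by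
    rintro x y ⟨r, rfl⟩ ⟨s, rfl⟩
    exact ⟨r + s, by simp [add_mul, Finset.sum_add_distrib]⟩
  have hsmul : ∀ (a : A) x, P x → P (a • x) := by
    rintro a x ⟨r, rfl⟩
    exact ⟨a • r, by simp [Finset.smul_sum]⟩
  have hzero : P 0 := ⟨0, by simp⟩
  have hbase : ∀ j, j < n₀ + 1 → P (c.basis j) := fun j hj =>
    ⟨fun l => if l = j then 1 else 0, by
      rw [Finset.sum_eq_single_of_mem j (Finset.mem_range.mpr hj) (fun l _ h => by simp [h])]
      simp⟩
  have hinc : ∀ r : R, P (E.emb A r) := fun r =>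
    ⟨fun l => if l = 0 then E.coordInc A r else 0, by
      rw [Finset.sum_eq_single_of_mem 0 (Finset.mem_range.mpr (by omega))
        (fun l _ h => by simp [h])]
      simp [c.basis_zero, E.expA_coordInc]⟩
  have hbasis : ∀ n, P (c.basis n) := by
    intro n
    induction n using Nat.strong_induction_on with
    | _ n IH =>
      by_cases hn : n < n₀ + 1
      · exact hbase n hn
      obtain ⟨f, hf1, hf2⟩ := hn₀ n (by omega)
      have hm : E.emb A f ∈ c.W := by simpa using c.mul_mem f 1 c.one_mem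
      have h := c.eq_sum_basis hm (hf2.lmap _)
      rw [Finset.sum_range_succ] at h
      have hlead : (E.emb A f).coeff (-(n : ℤ)) = 1 := by simp [emb, hf1]
      rw [hlead, one_smul] at h
      have : c.basis n = E.emb A f +
          (-1 : A) • ∑ j ∈ Finset.range n, (E.emb A f).coeff (-(j : ℤ)) • c.basis j := by
        rw [neg_one_smul, ← sub_eq_add_neg, eq_sub_iff_add_eq, add_comm]
        exact h.symm
      rw [this]
      refine hadd _ _ (hinc f) (hsmul _ _ (Finset.sum_induction _ P hadd hzero fun j hj => ?_))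
      exact hsmul _ _ (IH j (Finset.mem_range.mp hj))
  intro x hx
  obtain ⟨D, hD⟩ := exists_poleLE x
  show P x
  rw [c.eq_sum_basis hx hD]
  exact Finset.sum_induction _ P hadd hzero fun j _ => hsmul _ _ (hbasis j)

/-- Over a field, any two elements of `W` are linearly dependent over the coordinate ring. -/
theorem exists_dependent {K : Type u} [Field K] [Algebra k K] (c : Cell E K)
    {x y : LaurentSeries K} (hx : x ∈ c.W) (hy : y ∈ c.W) :
    ∃ r₁ r₂ : E.CoordRing K, (r₁ ≠ 0 ∨ r₂ ≠ 0) ∧ E.expA K r₁ * x = E.expA K r₂ * y := by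
  classical
  obtain ⟨n₀, hn₀⟩ := E.exists_pole
  choose f hf1 hf2 using hn₀
  obtain ⟨Dx, hDx⟩ := exists_poleLE x
  obtain ⟨Dy, hDy⟩ := exists_poleLE y
  let D := Dx + Dy
  let M := n₀ + D + 1
  let fn : Fin (M + 1) → E.CoordRing K := fun i => E.coordInc K (f (n₀ + i) (by omega))
  have hfn : ∀ i : Fin (M + 1), PoleLE (E.expA K (fn i)) ((n₀ + M : ℕ) : ℤ) := fun i => by
    rw [E.expA_coordInc]
    exact ((hf2 _ _).lmap _).mono (by have := i.2; push_cast; omega)
  let comb : (Fin (M + 1) → K) →ₗ[K] E.CoordRing K := Fintype.linearCombination K fn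
  have hpole : ∀ a, PoleLE (E.expA K (comb a)) ((n₀ + M : ℕ) : ℤ) := fun a => by
    simp only [comb, Fintype.linearCombination_apply, map_sum, map_smul]
    exact PoleLE.sum _ _ fun i _ => (hfn i).smul _
  let Lmap : (Fin (M + 1) → K) × (Fin (M + 1) → K) →ₗ[K] (Fin (n₀ + M + D + 1) → K) :=
    { toFun := fun ab j => (E.expA K (comb ab.1) * x - E.expA K (comb ab.2) * y).coeff (-(j : ℤ))
      map_add' := fun ab ab' => by
        ext j
        simp only [Prod.fst_add, Prod.snd_add, map_add, add_mul, Pi.add_apply,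
          HahnSeries.coeff_sub, HahnSeries.coeff_add]
        ring
      map_smul' := fun a ab => by
        ext j
        simp only [Prod.smul_fst, Prod.smul_snd, map_smul, smul_mul_assoc, Pi.smul_apply,
          HahnSeries.coeff_sub, HahnSeries.coeff_smul, RingHom.id_apply, smul_eq_mul]
        ring }
  have hLmap : ¬ Function.Injective Lmap := fun h => by
    have := LinearMap.finrank_le_finrank_of_injective h
    simp only [Module.finrank_prod, Module.finrank_fintype_fun_eq_card, Fintype.card_fin] at this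
    omega
  obtain ⟨ab, hab, hab0⟩ : ∃ ab, Lmap ab = 0 ∧ ab ≠ 0 := by
    by_contra h
    push Not at h
    exact hLmap ((injective_iff_map_eq_zero Lmap).mpr h)
  have hcomb : ∀ a, comb a = 0 → a = 0 := by
    intro a ha
    by_contra hne
    obtain ⟨i₀, hi₀⟩ : ∃ i, a i ≠ 0 := Function.ne_iff.mp hne
    let s := Finset.univ.filter fun i => a i ≠ 0
    have hs : s.Nonempty := ⟨i₀, by simp [s, hi₀]⟩
    let i := s.max' hs
    have hi : a i ≠ 0 := (Finset.mem_filter.mp (s.max'_mem hs)).2
    have h := congrArg (fun r => (E.expA K r).coeff (-((n₀ + i : ℕ) : ℤ))) ha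
    simp only [comb, Fintype.linearCombination_apply, map_sum, map_smul, map_zero,
      HahnSeries.coeff_sum, HahnSeries.coeff_smul, HahnSeries.coeff_zero, smul_eq_mul] at h
    rw [Finset.sum_eq_single_of_mem i (Finset.mem_univ i)] at h
    · rw [E.expA_coordInc, emb, RingHom.comp_apply, lmap_coeff, hf1, map_one, mul_one] at h
      exact hi h
    · intro j _ hj
      rcases eq_or_ne (a j) 0 with h0 | h0
      · rw [h0, zero_mul]
      · have hlt : j < i := lt_of_le_of_ne (s.le_max' j (by simp [s, h0])) hj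
        rw [E.expA_coordInc, emb, RingHom.comp_apply, lmap_coeff,
          hf2 (n₀ + (j : ℕ)) (by omega) _ (by have : (j : ℕ) < (i : ℕ) := hlt; push_cast; omega),
          map_zero, mul_zero]
  refine ⟨comb ab.1, comb ab.2, ?_, ?_⟩
  · by_contra h
    push Not at h
    exact hab0 (Prod.ext (hcomb _ h.1) (hcomb _ h.2))
  · refine c.eq_of_polar (c.expA_mul_mem _ hx) (c.expA_mul_mem _ hy) fun i hi => ?_
    by_cases hb : i < -((n₀ + M + D : ℕ) : ℤ)
    · rw [((hpole ab.1).mul hDx) i (by push_cast [D] at hb ⊢; omega),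
        ((hpole ab.2).mul hDy) i (by push_cast [D] at hb ⊢; omega)]
    · have hj : (-i).toNat < n₀ + M + D + 1 := by omega
      have h0 : (E.expA K (comb ab.1) * x - E.expA K (comb ab.2) * y).coeff
          (-(((-i).toNat : ℕ) : ℤ)) = 0 := congrFun hab ⟨(-i).toNat, hj⟩
      rwa [show -(((-i).toNat : ℕ) : ℤ) = i by omega, HahnSeries.coeff_sub, sub_eq_zero] at h0

/-- Over a field, near a prime `Q`, one of two elements of `W` divides the other. -/
theorem dichotomy {K : Type u} [Field K] [Algebra k K] [IsDedekindDomain (E.CoordRing K)]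
    (c : Cell E K) (Q : Ideal (E.CoordRing K)) [Q.IsPrime]
    {x y : LaurentSeries K} (hx : x ∈ c.W) (hy : y ∈ c.W) :
    ∃ h : E.CoordRing K, h ∉ Q ∧ ∃ r, E.expA K h * x = E.expA K r * y ∨
      E.expA K h * y = E.expA K r * x := by
  obtain ⟨r₁, r₂, hne, hr⟩ := c.exists_dependent hx hy
  let L := Localization.AtPrime Q
  have : ValuationRing L := by
    by_cases hQ : Q = ⊥
    · subst hQ
      have : IsField L := by
        let := Ideal.primeCompl (⊥ : Ideal (E.CoordRing K))
        refine IsLocalRing.isField_iff_maximalIdeal_eq.mpr ?_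
        rw [← Localization.AtPrime.map_eq_maximalIdeal, Ideal.map_bot]
      let := this.toField
      infer_instance
    · have := IsLocalization.AtPrime.isDiscreteValuationRing_of_dedekind_domain (E.CoordRing K) hQ L
      infer_instance
  have hinj : Function.Injective (algebraMap (E.CoordRing K) L) :=
    IsLocalization.injective L Q.primeCompl_le_nonZeroDivisors
  have hdom : ∀ r : E.CoordRing K, r ≠ 0 → E.expA K r ≠ 0 := fun r h0 h =>
    h0 (E.expA_injective K (by rw [h, map_zero]))
  have key : ∀ (p q : E.CoordRing K) (u v : LaurentSeries K), (p ≠ 0 ∨ q ≠ 0) →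
      E.expA K p * u = E.expA K q * v → algebraMap _ L p ∣ algebraMap _ L q →
      ∃ h : E.CoordRing K, h ∉ Q ∧ ∃ r, E.expA K h * u = E.expA K r * v := by
    intro p q u v hpq heq ⟨z, hz⟩
    obtain ⟨⟨a, b⟩, hab⟩ := IsLocalization.surj Q.primeCompl z
    have hp : p ≠ 0 := fun h => by
      rw [h, map_zero, zero_mul, map_eq_zero_iff _ hinj] at hz
      exact (hpq.elim (fun h' => h' h) (fun h' => h' hz))
    have hq : q * (b : E.CoordRing K) = p * a := hinj (by
      rw [map_mul, map_mul, hz, mul_assoc, hab])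
    refine ⟨b, b.2, a, mul_left_cancel₀ (hdom p hp) ?_⟩
    rw [mul_left_comm, heq, ← mul_assoc, ← mul_assoc, ← map_mul, ← map_mul, mul_comm (b : E.CoordRing K),
      hq]
  rcases ValuationRing.dvd_total (algebraMap _ L r₁) (algebraMap _ L r₂) with h | h
  · obtain ⟨s, hs, r, h'⟩ := key r₁ r₂ x y hne hr h
    exact ⟨s, hs, r, Or.inl h'⟩
  · obtain ⟨s, hs, r, h'⟩ := key r₂ r₁ y x hne.symm hr.symm h
    exact ⟨s, hs, r, Or.inr h'⟩

/-- Over a field, `W` is cyclic near each prime. -/
theorem exists_cyclic {K : Type u} [Field K] [Algebra k K] [IsDedekindDomain (E.CoordRing K)]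
    (c : Cell E K) (Q : Ideal (E.CoordRing K)) [Q.IsPrime] : ∀ N : ℕ, 0 < N →
    ∃ j₀ < N, ∃ h : E.CoordRing K, h ∉ Q ∧ ∀ j < N, ∃ r,
      E.expA K h * c.basis j = E.expA K r * c.basis j₀
  | 0, h => absurd h (lt_irrefl 0)
  | 1, _ => ⟨0, one_pos, 1, fun h => Ideal.IsPrime.ne_top ‹_› ((Ideal.eq_top_iff_one _).mpr h),
      fun j hj => ⟨1, by rw [show j = 0 by omega]⟩⟩
  | N + 2, _ => by
    obtain ⟨j₀, hj₀, h, hh, hall⟩ := exists_cyclic c Q (N + 1) (by omega)
    obtain ⟨h', hh', r, hr⟩ := c.dichotomy Q (c.basis_mem j₀) (c.basis_mem (N + 1))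
    have hhh : h' * h ∉ Q := fun hm => (Ideal.IsPrime.mem_or_mem ‹_› hm).elim hh' hh
    rcases hr with hr | hr
    · refine ⟨N + 1, by omega, h' * h, hhh, fun j hj => ?_⟩
      rcases Nat.lt_succ_iff_lt_or_eq.mp hj with hj | rfl
      · obtain ⟨s, hs⟩ := hall j hj
        refine ⟨s * r, ?_⟩
        rw [map_mul, map_mul, mul_assoc, hs, mul_left_comm, hr, mul_assoc]
      · exact ⟨h' * h, rfl⟩
    · refine ⟨j₀, by omega, h' * h, hhh, fun j hj => ?_⟩
      rcases Nat.lt_succ_iff_lt_or_eq.mp hj with hj | rfl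
      · obtain ⟨s, hs⟩ := hall j hj
        exact ⟨h' * s, by rw [map_mul, map_mul, mul_assoc, hs, mul_assoc]⟩
      · exact ⟨h * r, by rw [map_mul, map_mul, mul_comm (E.expA K h'), mul_assoc, hr, mul_assoc]⟩

theorem exists_clear {K : Type u} [Field K] [Algebra k K] (φ : A →ₐ[k] K)
    (hsurj : ∀ z : K, ∃ a b : A, φ b ≠ 0 ∧ φ b * z = φ a) (y : E.CoordRing K) :
    ∃ a : A, φ a ≠ 0 ∧ ∃ Y : E.CoordRing A, E.coordMap φ Y = φ a • y := by
  induction y using coordRing_induction E K with
  | h z r =>
    obtain ⟨a, b, hb, hab⟩ := hsurj z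
    exact ⟨b, hb, a • E.coordInc A r, by
      rw [E.coordMap_smul, E.coordMap_coordInc, smul_smul, hab]⟩
  | hadd x y hx hy =>
    obtain ⟨a, ha, X, hX⟩ := hx
    obtain ⟨b, hb, Y, hY⟩ := hy
    refine ⟨a * b, by rw [map_mul]; exact mul_ne_zero ha hb, b • X + a • Y, ?_⟩
    rw [map_add, E.coordMap_smul, E.coordMap_smul, hX, hY, smul_smul, smul_smul, map_mul, smul_add,
      mul_comm (φ b)]

variable [∀ (K : Type u) [Field K] [Algebra k K], IsDedekindDomain (E.CoordRing K)]

/-- Near each prime, `W` is cyclic. -/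
theorem exists_localGenerator (P : Ideal (E.CoordRing A)) [P.IsPrime] :
    ∃ w ∈ c.W, ∃ d : E.CoordRing A, d ∉ P ∧ ∀ x ∈ c.W, ∃ r,
      E.expA A d * x = E.expA A r * w := by
  classical
  let p : Ideal A := P.comap (algebraMap A (E.CoordRing A))
  let K := p.ResidueField
  let φ : A →ₐ[k] K := IsScalarTower.toAlgHom k A K
  have hker : ∀ a, φ a = 0 ↔ a ∈ p := fun a => Ideal.algebraMap_residueField_eq_zero
  have hfrac : ∀ z : K, ∃ a b : A, φ b ≠ 0 ∧ φ b * z = φ a := by
    intro z
    obtain ⟨⟨a, b⟩, hab⟩ := IsLocalization.surj (nonZeroDivisors (A ⧸ p)) z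
    obtain ⟨a, rfl⟩ := Ideal.Quotient.mk_surjective a
    obtain ⟨b', hb'⟩ := Ideal.Quotient.mk_surjective (b : A ⧸ p)
    refine ⟨a, b', fun h => nonZeroDivisors.coe_ne_zero b ?_, ?_⟩
    · rw [← hb', Ideal.Quotient.eq_zero_iff_mem]; exact (hker b').mp h
    · rw [mul_comm, ← hb'] at hab
      exact hab
  -- the point of the fibre
  let κ := P.ResidueField
  let β : K →+* κ := Ideal.ResidueField.map p P (algebraMap A (E.CoordRing A)) rfl
  letI : Algebra k κ := ((β.comp (algebraMap k K))).toAlgebra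
  let β' : K →ₐ[k] κ := { β with commutes' := fun _ => rfl }
  let γ : R →ₐ[k] κ :=
    { (algebraMap (E.CoordRing A) κ).comp (E.coordInc A) with
      commutes' := fun a => by
        change algebraMap (E.CoordRing A) κ (E.coordInc A (algebraMap k R a)) =
          β (algebraMap k K a)
        rw [IsScalarTower.algebraMap_apply k A K, Ideal.ResidueField.map_algebraMap]
        congr 1
        apply E.expA_injective A
        rw [E.expA_coordInc, E.emb_const, Algebra.algebraMap_eq_smul_one (algebraMap k A a),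
          map_smul, map_one, laurent_smul_eq, mul_one] }
  let ψ : E.CoordRing K →+* κ :=
    (Algebra.TensorProduct.lift β' γ fun _ _ => Commute.all _ _).toRingHom.comp
      ((E.toCoord K).symm : E.CoordRing K →+* K ⊗[k] R)
  have hψ : ∀ x : E.CoordRing A, ψ (E.coordMap φ x) = algebraMap _ κ x := by
    intro x
    induction x using coordRing_induction E A with
    | h a r =>
      rw [E.coordMap_smul, E.coordMap_coordInc, Algebra.smul_def, map_mul, Algebra.smul_def,
        map_mul]
      congr 1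
      · change Algebra.TensorProduct.lift β' γ (fun _ _ => Commute.all _ _) (φ a ⊗ₜ[k] (1 : R)) = _
        rw [Algebra.TensorProduct.lift_tmul, map_one, mul_one]
        exact Ideal.ResidueField.map_algebraMap ..
      · change Algebra.TensorProduct.lift β' γ (fun _ _ => Commute.all _ _) ((1 : K) ⊗ₜ[k] r) = _
        rw [Algebra.TensorProduct.lift_tmul, map_one, one_mul]
        rfl
    | hadd x y hx hy => rw [map_add, map_add, map_add, hx, hy]
  let Q := RingHom.ker ψ
  have : Q.IsPrime := RingHom.ker_isPrime ψ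
  have hPQ : ∀ x, x ∈ P ↔ E.coordMap φ x ∈ Q := fun x => by
    rw [RingHom.mem_ker, hψ]; exact Ideal.algebraMap_residueField_eq_zero.symm
  obtain ⟨N, hN, hspan⟩ := c.exists_bounded_span
  obtain ⟨j₀, hj₀, h, hh, hall⟩ := (c.map φ).exists_cyclic Q N hN
  choose r hr using hall
  obtain ⟨a, ha, H, hH⟩ := exists_clear φ hfrac h
  have hHP : H ∉ P := by
    rw [hPQ, hH, Algebra.smul_def]
    refine fun hm => (Ideal.IsPrime.mem_or_mem ‹Q.IsPrime› hm).elim (fun hu => ?_) hh
    exact Ideal.IsPrime.ne_top ‹Q.IsPrime›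
      (Ideal.eq_top_of_isUnit_mem _ hu ((IsUnit.mk0 _ ha).map _))
  -- each basis element is, up to `P`, a multiple of the chosen one
  have hcl : ∀ j : Fin N, ∃ H' : E.CoordRing A, H' ∉ P ∧ ∃ (R' : E.CoordRing A)
      (Qr : Fin N → E.CoordRing A), (∀ l, Qr l ∈ P) ∧ E.expA A H' * c.basis j =
        E.expA A R' * c.basis j₀ + ∑ l : Fin N, E.expA A (Qr l) * c.basis l := by
    intro j
    obtain ⟨b, hb, Rj, hRj⟩ := exists_clear φ hfrac (r j j.2)
    have hH' : b • H ∉ P := by
      rw [Algebra.smul_def]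
      exact fun hm => (Ideal.IsPrime.mem_or_mem ‹P.IsPrime› hm).elim
        (fun h' => hb ((hker b).mpr h')) hHP
    refine ⟨b • H, hH', a • Rj, ?_⟩
    set v := E.expA A (b • H) * c.basis j - E.expA A (a • Rj) * c.basis j₀
    have hv : v ∈ c.W :=
      sub_mem (c.expA_mul_mem _ (c.basis_mem _)) (c.expA_mul_mem _ (c.basis_mem _))
    have hlv : lmap (φ : A →+* K) v = 0 := by
      rw [map_sub, map_mul, map_mul, E.lmap_expA, E.lmap_expA, ← c.map_basis, ← c.map_basis,
        E.coordMap_smul, E.coordMap_smul, hH, hRj, smul_smul, smul_smul, map_smul, map_smul,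
        smul_mul_assoc, smul_mul_assoc, hr j j.2, mul_comm (φ b), sub_self]
    obtain ⟨D, hD⟩ := exists_poleLE v
    choose s hs using fun l : ℕ => hspan (c.basis l) (c.basis_mem l)
    refine ⟨fun l : Fin N => ∑ i ∈ Finset.range (D + 1),
        algebraMap A (E.CoordRing A) (v.coeff (-(i : ℤ))) * s i l,
      fun l => Ideal.sum_mem _ fun i _ => Ideal.mul_mem_right _ _ ?_, ?_⟩
    · refine (hker (v.coeff (-(i : ℤ)))).mp ?_
      simpa using congrArg (fun f => HahnSeries.coeff f (-(i : ℤ))) hlv
    · rw [← sub_eq_iff_eq_add']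
      change v = _
      conv_lhs => rw [c.eq_sum_basis hv hD]
      simp only [map_sum, map_mul, Finset.sum_mul]
      rw [Finset.sum_comm]
      refine Finset.sum_congr rfl fun i _ => ?_
      conv_lhs => rw [hs i, ← Fin.sum_univ_eq_sum_range (fun l => E.expA A (s i l) * c.basis l),
        Finset.smul_sum]
      refine Finset.sum_congr rfl fun l _ => ?_
      rw [Algebra.algebraMap_eq_smul_one (v.coeff (-(i : ℤ))), map_smul, map_one, smul_one_mul,
        smul_mul_assoc]
  choose H' hH' R' Qr hQr heq using hcl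
  let M : Matrix (Fin N) (Fin N) (E.CoordRing A) := Matrix.diagonal H' - Matrix.of Qr
  let f := E.expA A
  have hM : ∀ j, ∑ l, f (M j l) * c.basis l = f (R' j) * c.basis j₀ := by
    intro j
    simp only [M, Matrix.sub_apply, map_sub, sub_mul, Finset.sum_sub_distrib, Matrix.of_apply]
    rw [Finset.sum_eq_single_of_mem j (Finset.mem_univ j), Matrix.diagonal_apply_eq, heq j,
      add_sub_cancel_right]
    intro l _ hl
    rw [Matrix.diagonal_apply_ne' _ hl, map_zero, zero_mul]
  have hdet : M.det ∉ P := by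
    intro hm
    have hmk : (Ideal.Quotient.mk P).mapMatrix M =
        Matrix.diagonal fun j => Ideal.Quotient.mk P (H' j) := by
      ext i l
      rcases eq_or_ne i l with rfl | hil <;>
        simp [M, Ideal.Quotient.eq_zero_iff_mem.mpr (hQr i _), *]
    have := Ideal.Quotient.eq_zero_iff_mem.mpr hm
    rw [RingHom.map_det, hmk, Matrix.det_diagonal, Finset.prod_eq_zero_iff] at this
    obtain ⟨j, -, hj⟩ := this
    exact hH' j (Ideal.Quotient.eq_zero_iff_mem.mp hj)
  refine ⟨c.basis j₀, c.basis_mem j₀, M.det, hdet, fun x hx => ?_⟩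
  obtain ⟨r', rfl⟩ := hspan x hx
  refine ⟨∑ l : Fin N, r' l * ∑ j, M.adjugate l j * R' j, ?_⟩
  rw [← Fin.sum_univ_eq_sum_range (fun l => E.expA A (r' l) * c.basis l), Finset.mul_sum, map_sum,
    Finset.sum_mul]
  refine Finset.sum_congr rfl fun l _ => ?_
  rw [map_mul, mul_left_comm, mul_assoc]
  congr 1
  calc f M.det * c.basis l
      = ∑ l', f ((M.adjugate * M) l l') * c.basis l' := by
        rw [Matrix.adjugate_mul, Finset.sum_eq_single_of_mem (l : Fin N) (Finset.mem_univ _)]
        · simp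
        · intro l' _ hl'
          simp [Ne.symm hl']
    _ = ∑ j, f (M.adjugate l j) * ∑ l', f (M j l') * c.basis l' := by
        simp only [Matrix.mul_apply, map_sum, map_mul, Finset.sum_mul, Finset.mul_sum, mul_assoc]
        exact Finset.sum_comm
    _ = f (∑ j, M.adjugate l j * R' j) * c.basis j₀ := by
        simp only [hM, map_sum, map_mul, Finset.sum_mul, mul_assoc]

/-- `W` is invertible: there is a partition of unity `∑ qᵢ wᵢ = 1` with `qᵢ W ⊆ R_A`. -/
theorem exists_invertible : ∃ (n : ℕ) (q : Fin n → E.CoordRing A) (w : Fin n → LaurentSeries A),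
    (∀ i, w i ∈ c.W) ∧ (∀ i, ∀ x ∈ c.W, ∃ r, E.expA A r = E.expA A (q i) * x) ∧
      ∑ i, E.expA A (q i) * w i = 1 := by
  let S : Set (E.CoordRing A) := {s | ∃ q, ∃ w ∈ c.W,
    (∀ x ∈ c.W, ∃ r, E.expA A r = E.expA A q * x) ∧ E.expA A s = E.expA A q * w}
  have htop : Ideal.span S = ⊤ := by
    by_contra hne
    obtain ⟨P, hP, hle⟩ := Ideal.exists_le_maximal _ hne
    have := hP.isPrime
    obtain ⟨w, hw, d, hd, hall⟩ := c.exists_localGenerator P
    obtain ⟨r₀, hr₀⟩ := hall 1 c.one_mem
    rw [mul_one] at hr₀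
    have hS : d * d ∈ S := by
      refine ⟨d * r₀, w, hw, fun x hx => ?_, ?_⟩
      · obtain ⟨r, hr⟩ := hall x hx
        refine ⟨d * r, ?_⟩
        rw [map_mul, map_mul, mul_right_comm, hr, mul_right_comm, mul_assoc, ← hr₀, mul_comm]
      · rw [map_mul, map_mul, mul_assoc, ← hr₀]
    exact hd ((hP.isPrime.mem_or_mem (hle (Ideal.subset_span hS))).elim id id)
  obtain ⟨n, a, s, hsum⟩ := Submodule.mem_span_set'.mp
    (show (1 : E.CoordRing A) ∈ Submodule.span (E.CoordRing A) S by
      rw [← Ideal.span, htop]; trivial)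
  choose q w hw hq hs using fun i => (s i).2
  refine ⟨n, fun i => a i * q i, w, hw, fun i x hx => ?_, ?_⟩
  · obtain ⟨r, hr⟩ := hq i x hx
    exact ⟨a i * r, by rw [map_mul, map_mul, hr, mul_assoc]⟩
  · have h := congrArg (E.expA A) hsum
    simp only [map_sum, map_one, smul_eq_mul, map_mul] at h
    rw [← h]
    exact Finset.sum_congr rfl fun i _ => by rw [map_mul, mul_assoc, hs i]

end Cell

end Expansion

end Fermat.Agent.Jac
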