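import Fermat.Agent.Jac.BigCell.Semicontinuity
import Fermat.Agent.Jac.BigCell.Invertible

/-!
Lattices with polar parts `A[z⁻¹]` versus points of the big cell.
-/

set_option autoImplicit false
set_option linter.unusedVariables false

noncomputable section

open HahnSeries
open scoped TensorProduct

attribute [local instance 2000] HahnSeries.instAlgebra

namespace Fermat.Agent.Jac

universe u

variable {k : Type u} [Field k] {R : Type u} [CommRing R] [Algebra k R]

theorem expA_mem_emb {E : Expansion k R} {A : Type u} [CommRing A] [Algebra k A] (r : R) :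
    E.emb A r ∈ (E.expA A).range :=
  ⟨E.coordInc A r, E.expA_coordInc A r⟩

/-- A series without pole as a power series. -/
theorem exists_ofPowerSeries {A : Type u} [CommRing A] {x : LaurentSeries A} (hx : PoleLE x 0) :
    ∃ p : PowerSeries A, HahnSeries.ofPowerSeries ℤ A p = x := by
  refine ⟨PowerSeries.mk fun n => x.coeff n, ?_⟩
  ext i
  rcases lt_or_ge i 0 with h | h
  · rw [poleLE_ofPowerSeries _ i (by omega), hx i (by omega)]
  · lift i to ℕ using h
    rw [HahnSeries.ofPowerSeries_apply_coeff, PowerSeries.coeff_mk]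

theorem isUnit_ofPowerSeries {A : Type u} [CommRing A] {p : PowerSeries A}
    (h : IsUnit (PowerSeries.constantCoeff p)) : IsUnit (HahnSeries.ofPowerSeries ℤ A p) :=
  (PowerSeries.isUnit_iff_constantCoeff.mpr h).map _

namespace Expansion

variable {E : Expansion k R} {A : Type u} [CommRing A] [Algebra k A]

/-- A polar lattice containing `1` is a point of the big cell. -/
def Lattice.toCell (L : Lattice E A) (h : Polar L.W) (h1 : (1 : LaurentSeries A) ∈ L.W) :
    Cell E A where
  W := L.W
  one_mem := h1
  mul_mem r w hw := by rw [← E.expA_coordInc]; exact L.expA_mul_mem _ hw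
  exists_basis := h.1
  eq_zero_of_polar := h.2

theorem Cell.polar (c : Cell E A) : Polar c.W := ⟨c.exists_basis, c.eq_zero_of_polar⟩

/-- A polar lattice can be scaled to contain `1`. -/
theorem Lattice.exists_normalise (L : Lattice E A) (h : Polar L.W) :
    ∃ (x : PowerSeries A) (u : (LaurentSeries A)ˣ) (c : Cell E A),
      PowerSeries.constantCoeff x = 1 ∧
        (u : LaurentSeries A) = HahnSeries.ofPowerSeries ℤ A x ∧
        (u : LaurentSeries A) ∈ L.W ∧ c.W = (L.scale u⁻¹).W := by
  obtain ⟨w, hw, hw0⟩ := h.1 0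
  obtain ⟨x, rfl⟩ := exists_ofPowerSeries (x := w) fun i hi => by
    rw [hw0 i (by omega), if_neg (by omega)]
  have hx : PowerSeries.constantCoeff x = 1 := by
    have := hw0 0 le_rfl
    rw [← Nat.cast_zero, HahnSeries.ofPowerSeries_apply_coeff,
      PowerSeries.coeff_zero_eq_constantCoeff_apply] at this
    simpa using this
  have hu : IsUnit (HahnSeries.ofPowerSeries ℤ A x) := isUnit_ofPowerSeries (hx ▸ isUnit_one)
  let u := hu.unit
  have huv : (u : LaurentSeries A) = HahnSeries.ofPowerSeries ℤ A x := hu.unit_spec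
  let y : PowerSeries A := PowerSeries.invOfUnit x 1
  have hy : ((u⁻¹ : (LaurentSeries A)ˣ) : LaurentSeries A) = HahnSeries.ofPowerSeries ℤ A y := by
    refine Units.inv_eq_of_mul_eq_one_right ?_
    rw [huv, ← map_mul, PowerSeries.mul_invOfUnit x 1 (by rw [hx]; rfl), map_one]
  have hy0 : PowerSeries.constantCoeff y = 1 := by simp [y]
  -- multiplication by such series is triangular
  have htri : ∀ (p : PowerSeries A) (v : LaurentSeries A) (D : ℤ), PowerSeries.constantCoeff p = 1 →
      PoleLE v D → PoleLE (HahnSeries.ofPowerSeries ℤ A p * v) D ∧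
        (HahnSeries.ofPowerSeries ℤ A p * v).coeff (-D) = v.coeff (-D) := by
    intro p v D hp hv
    refine ⟨((poleLE_ofPowerSeries p).mul hv).mono (by omega), ?_⟩
    have := coeff_mul_bottom (poleLE_ofPowerSeries p) hv
    rwa [zero_add, neg_zero, ← Nat.cast_zero, HahnSeries.ofPowerSeries_apply_coeff,
      PowerSeries.coeff_zero_eq_constantCoeff_apply, hp, one_mul] at this
  have h1 : (1 : LaurentSeries A) ∈ (L.scale u⁻¹).W := by
    rw [Lattice.mem_scale, inv_inv, mul_one, huv]
    exact hw
  have hmem : ∀ v ∈ L.W, HahnSeries.ofPowerSeries ℤ A y * v ∈ (L.scale u⁻¹).W := fun v hv => by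
    rw [Lattice.mem_scale, inv_inv, ← hy, Units.mul_inv_cancel_left]
    exact hv
  have hpolar : Polar (L.scale u⁻¹).W := by
    refine ⟨fun n => ?_, fun v hv hv0 => ?_⟩
    · induction n using Nat.strong_induction_on with
      | _ n IH =>
        obtain ⟨v, hv, hv0⟩ := h.1 n
        have hvp : PoleLE v n := fun i hi => by rw [hv0 i (by omega), if_neg (by omega)]
        obtain ⟨hp, hl⟩ := htri y v n hy0 hvp
        rw [hv0 _ (by omega), if_pos rfl] at hl
        set v' := HahnSeries.ofPowerSeries ℤ A y * v
        choose e he hec using IH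
        refine ⟨v' - ∑ j : Fin n, v'.coeff (-(j : ℤ)) • e j j.2,
          sub_mem (hmem v hv) (sum_mem fun j _ => Submodule.smul_mem _ _ (he j j.2)),
          fun i hi => ?_⟩
        simp only [HahnSeries.coeff_sub, HahnSeries.coeff_sum, HahnSeries.coeff_smul, smul_eq_mul,
          hec _ _ i hi, mul_ite, mul_zero, mul_one]
        rcases lt_trichotomy i (-(n : ℤ)) with h1 | rfl | h1
        · rw [hp i h1, if_neg (by omega), Finset.sum_eq_zero, sub_zero]
          intro j _
          rw [if_neg (by omega)]
        · rw [hl, if_pos rfl, Finset.sum_eq_zero, sub_zero]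
          intro j _
          rw [if_neg (by omega)]
        · rw [if_neg (by omega),
            Finset.sum_eq_single_of_mem (⟨(-i).toNat, by omega⟩ : Fin n) (Finset.mem_univ _)]
          · simp only [show -(((-i).toNat : ℕ) : ℤ) = i by omega, if_true, sub_self]
          · intro j _ hj
            rw [if_neg fun e' => hj (Fin.ext (by simp only; omega))]
    · rw [Lattice.mem_scale, inv_inv, huv] at hv
      have hp : PoleLE v (-1) := fun i hi => hv0 i (by omega)
      have hz := h.2 _ hv fun i hi =>
        ((poleLE_ofPowerSeries x).mul hp) i (by omega)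
      rw [← huv] at hz
      simpa using hz
  exact ⟨x, u, (L.scale u⁻¹).toCell hpolar h1, hx, huv, by rw [huv]; exact hw, rfl⟩

/-- Two cells differing by a power series unit are equal. -/
theorem Cell.eq_of_scale {c c' : Cell E A} {p : PowerSeries A}
    (h : ∀ v ∈ c.W, HahnSeries.ofPowerSeries ℤ A p * v ∈ c'.W)
    (hp : IsUnit (PowerSeries.constantCoeff p)) : c = c' := by
  have h1 := h 1 c.one_mem
  rw [mul_one] at h1
  have h2 : HahnSeries.ofPowerSeries ℤ A p = PowerSeries.constantCoeff p • (1 : LaurentSeries A) := by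
    refine c'.eq_of_polar h1 (c'.W.smul_mem _ c'.one_mem) fun i hi => ?_
    rcases hi.lt_or_eq with hi | rfl
    · rw [poleLE_ofPowerSeries p i (by omega), HahnSeries.coeff_smul, HahnSeries.coeff_one,
        if_neg hi.ne, smul_zero]
    · rw [← Nat.cast_zero, HahnSeries.ofPowerSeries_apply_coeff,
        PowerSeries.coeff_zero_eq_constantCoeff_apply, HahnSeries.coeff_smul]
      simp
  obtain ⟨b, hb⟩ := hp.exists_left_inv
  have hle : c.W ≤ c'.W := fun v hv => by
    have := c'.W.smul_mem b (h v hv)
    rwa [h2, smul_mul_assoc, one_mul, smul_smul, hb, one_smul] at this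
  refine Cell.ext' (le_antisymm hle fun v hv => ?_)
  obtain ⟨D, hD⟩ := exists_poleLE v
  have hbasis : ∀ j, c'.basis j = c.basis j := fun j =>
    c'.eq_of_polar (c'.basis_mem j) (hle (c.basis_mem j)) fun i hi => by
      rw [c'.basis_coeff j i hi, c.basis_coeff j i hi]
  rw [c'.eq_sum_basis hv hD]
  simp only [hbasis]
  exact sum_mem fun j _ => c.W.smul_mem _ (c.basis_mem j)

/-- A lattice describing a cell. -/
theorem Cell.exists_lattice [∀ (K : Type u) [Field K] [Algebra k K],
    IsDedekindDomain (E.CoordRing K)] (c : Cell E A) :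
    ∃ L : Lattice E A, L.W = c.W ∧ ∀ i, L.w' i ∈ (E.expA A).range := by
  obtain ⟨n, q, w, hw, hq, hsum⟩ := c.exists_invertible
  refine ⟨⟨n, w, fun i => E.expA A (q i), fun i j => ?_, hsum⟩, ?_, fun i => ⟨q i, rfl⟩⟩
  · obtain ⟨r, hr⟩ := hq i _ (hw j)
    exact ⟨r, hr⟩
  · ext x
    refine ⟨fun hx => ?_, fun hx i => ?_⟩
    · obtain ⟨r, -, hr⟩ := Lattice.eq_sum _ hx
      rw [hr]
      exact sum_mem fun i _ => c.expA_mul_mem _ (hw i)
    · obtain ⟨r, hr⟩ := hq i x hx
      exact ⟨r, hr⟩

end Expansion

end Fermat.Agent.Jac
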