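import Fermat.Agent.Jac.BigCell.Series

/-!
The big cell: submodules `W` of `A((z))`, stable under an expanded coordinate ring, containing `1`
and complementary to `z A[[z]]`.
-/

set_option autoImplicit false
set_option linter.unusedVariables false

noncomputable section

open HahnSeries

namespace Fermat.Agent.Jac

universe u

variable {k : Type u} [Field k] {R : Type u} [CommRing R] [Algebra k R]

/-- An expansion of a coordinate ring in Laurent series. -/
structure Expansion (k R : Type u) [Field k] [CommRing R] [Algebra k R] where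
  e : R →+* LaurentSeries k
  e_const : ∀ a : k, e (algebraMap k R a) = HahnSeries.C a
  injective : Function.Injective e
  exists_pole : ∃ n₀ : ℕ, ∀ n : ℕ, n₀ ≤ n → ∃ f : R,
    (e f).coeff (-(n : ℤ)) = 1 ∧ PoleLE (e f) n
  const_of_no_pole : ∀ f : R, PoleLE (e f) 0 → ∃ a : k, f = algebraMap k R a

namespace Expansion

variable (E : Expansion k R) (A : Type u) [CommRing A] [Algebra k A]

/-- The expansion with coefficients in `A`. -/
def emb : R →+* LaurentSeries A := (lmap (algebraMap k A)).comp E.e

theorem emb_const (a : k) : E.emb A (algebraMap k R a) = HahnSeries.C (algebraMap k A a) := by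
  simp [emb, E.e_const]

theorem lmap_emb {B : Type u} [CommRing B] [Algebra k B] (φ : A →ₐ[k] B) (r : R) :
    lmap (φ : A →+* B) (E.emb A r) = E.emb B r := by
  simp only [emb, RingHom.comp_apply, lmap_lmap, AlgHom.comp_algebraMap]

/-- A bound for the pole of `r`. -/
def pole (r : R) : ℕ := (exists_poleLE (E.e r)).choose

theorem poleLE (r : R) : PoleLE (E.emb A r) (E.pole r) :=
  (exists_poleLE (E.e r)).choose_spec.lmap _

/-- A point of the big cell. -/
structure Cell where
  W : Submodule A (LaurentSeries A)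
  one_mem : (1 : LaurentSeries A) ∈ W
  mul_mem : ∀ (r : R) (w : LaurentSeries A), w ∈ W → E.emb A r * w ∈ W
  exists_basis : ∀ n : ℕ, ∃ w ∈ W, ∀ i : ℤ, i ≤ 0 → w.coeff i = if i = -(n : ℤ) then 1 else 0
  eq_zero_of_polar : ∀ w ∈ W, (∀ i : ℤ, i ≤ 0 → w.coeff i = 0) → w = 0

variable {E A}

/-- The series with polar part `z ^ (-n)` and tail coefficients `a n i`. -/
def cellSeries (a : ℕ → ℕ → A) (n : ℕ) : LaurentSeries A :=
  single (-(n : ℤ)) 1 +
    ofPowerSeries ℤ A (PowerSeries.mk fun i => if i = 0 then 0 else a n i)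

theorem cellSeries_coeff_polar (a : ℕ → ℕ → A) (n : ℕ) (i : ℤ) (hi : i ≤ 0) :
    (cellSeries a n).coeff i = if i = -(n : ℤ) then 1 else 0 := by
  have h0 : (ofPowerSeries ℤ A (PowerSeries.mk fun i => if i = 0 then 0 else a n i)).coeff i = 0 := by
    rcases hi.lt_or_eq with h | rfl
    · exact poleLE_ofPowerSeries _ i (by omega)
    · exact (ofPowerSeries_apply_coeff (Γ := ℤ) (PowerSeries.mk fun i => if i = 0 then 0 else a n i)
        0).trans (by simp)
  simp [cellSeries, h0, HahnSeries.coeff_single]

theorem cellSeries_coeff_tail (a : ℕ → ℕ → A) (n i : ℕ) (hi : i ≠ 0) :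
    (cellSeries a n).coeff (i : ℤ) = a n i := by
  have h : (i : ℤ) ≠ -(n : ℤ) := by omega
  simp [cellSeries, h, hi]

theorem poleLE_cellSeries (a : ℕ → ℕ → A) (n : ℕ) : PoleLE (cellSeries a n) n := fun i hi => by
  rw [cellSeries_coeff_polar a n i (by omega), if_neg (by omega)]

theorem lmap_cellSeries {B : Type u} [CommRing B] (φ : A →+* B) (a : ℕ → ℕ → A) (n : ℕ) :
    lmap φ (cellSeries a n) = cellSeries (fun n i => φ (a n i)) n := by
  refine laurent_ext (fun i hi => ?_) (fun i => ?_)
  · rw [lmap_coeff, cellSeries_coeff_polar _ _ _ hi, cellSeries_coeff_polar _ _ _ hi]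
    split_ifs <;> simp
  · rw [lmap_coeff, show ((i : ℤ) + 1) = ((i + 1 : ℕ) : ℤ) by push_cast; rfl,
      cellSeries_coeff_tail _ _ _ (by omega), cellSeries_coeff_tail _ _ _ (by omega)]

namespace Cell

variable (c : Cell E A)

/-- The basis element of `W` with polar part `z ^ (-n)`. -/
def basis (n : ℕ) : LaurentSeries A := (c.exists_basis n).choose

theorem basis_mem (n : ℕ) : c.basis n ∈ c.W := (c.exists_basis n).choose_spec.1

theorem basis_coeff (n : ℕ) (i : ℤ) (hi : i ≤ 0) :
    (c.basis n).coeff i = if i = -(n : ℤ) then 1 else 0 :=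
  (c.exists_basis n).choose_spec.2 i hi

theorem eq_of_polar {v w : LaurentSeries A} (hv : v ∈ c.W) (hw : w ∈ c.W)
    (h : ∀ i : ℤ, i ≤ 0 → v.coeff i = w.coeff i) : v = w :=
  sub_eq_zero.mp (c.eq_zero_of_polar _ (sub_mem hv hw) fun i hi => by simp [h i hi])

theorem basis_zero : c.basis 0 = 1 :=
  c.eq_of_polar (c.basis_mem 0) c.one_mem fun i hi => by
    rw [c.basis_coeff 0 i hi]; simp [HahnSeries.coeff_one]

theorem eq_sum_basis {w : LaurentSeries A} (hw : w ∈ c.W) {D : ℕ} (hD : PoleLE w D) :
    w = ∑ j ∈ Finset.range (D + 1), w.coeff (-(j : ℤ)) • c.basis j := by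
  refine c.eq_of_polar hw (sum_mem fun j _ => c.W.smul_mem _ (c.basis_mem j)) fun i hi => ?_
  rw [HahnSeries.coeff_sum]
  simp only [HahnSeries.coeff_smul, c.basis_coeff _ i hi, smul_eq_mul, mul_ite, mul_one, mul_zero]
  by_cases h : i < -(D : ℤ)
  · rw [hD i h, Finset.sum_eq_zero]
    intro j hj
    rw [if_neg]
    have := Finset.mem_range.mp hj
    omega
  · rw [Finset.sum_eq_single_of_mem ((-i).toNat) (Finset.mem_range.mpr (by omega))]
    · rw [if_pos (by omega), show -(((-i).toNat : ℕ) : ℤ) = i by omega]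
    · intro j _ hj
      rw [if_neg (by omega)]

theorem span_basis : Submodule.span A (Set.range c.basis) = c.W := by
  refine le_antisymm (Submodule.span_le.mpr ?_) fun w hw => ?_
  · rintro _ ⟨n, rfl⟩; exact c.basis_mem n
  · obtain ⟨D, hD⟩ := exists_poleLE w
    rw [c.eq_sum_basis hw hD]
    exact sum_mem fun j _ => Submodule.smul_mem _ _ (Submodule.subset_span ⟨j, rfl⟩)

/-- Coordinates of a cell. -/
def coord (n i : ℕ) : A := if i = 0 then 0 else (c.basis n).coeff (i : ℤ)

theorem cellSeries_coord (n : ℕ) : cellSeries c.coord n = c.basis n := by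
  refine laurent_ext (fun i hi => ?_) (fun i => ?_)
  · rw [cellSeries_coeff_polar _ _ _ hi, c.basis_coeff n i hi]
  · rw [show ((i : ℤ) + 1) = ((i + 1 : ℕ) : ℤ) by push_cast; rfl,
      cellSeries_coeff_tail _ _ _ (by omega), coord, if_neg (by omega)]

@[ext]
theorem ext' {c c' : Cell E A} (h : c.W = c'.W) : c = c' := by
  cases c; cases c'; cases h; rfl

theorem ext_of_coord {c c' : Cell E A} (h : c.coord = c'.coord) : c = c' := by
  refine ext' ?_
  rw [← c.span_basis, ← c'.span_basis]
  congr 2
  funext n
  rw [← c.cellSeries_coord, ← c'.cellSeries_coord, h]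

end Cell

/-- The defining equation of the big cell, for `r`, `n` and the coefficient `i`. -/
def cellEq (E : Expansion k R) (a : ℕ → ℕ → A) (r : R) (n i : ℕ) : A :=
  (E.emb A r * cellSeries a n).coeff (i : ℤ) -
    ∑ j ∈ Finset.range (n + E.pole r + 1),
      (E.emb A r * cellSeries a n).coeff (-(j : ℤ)) * a j i

/-- Coordinates satisfying the equations of the big cell. -/
structure IsCellCoord (E : Expansion k R) (a : ℕ → ℕ → A) : Prop where
  zero_left : ∀ i, a 0 i = 0
  zero_right : ∀ n, a n 0 = 0
  eqn : ∀ r n i, i ≠ 0 → cellEq E a r n i = 0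

theorem Cell.isCellCoord (c : Cell E A) : IsCellCoord E c.coord where
  zero_left i := by
    rw [Cell.coord]
    split_ifs with h
    · rfl
    · rw [c.basis_zero, HahnSeries.coeff_one, if_neg (by omega)]
  zero_right n := if_pos rfl
  eqn r n i hi := by
    have hP : PoleLE (E.emb A r * c.basis n) ((n + E.pole r : ℕ) : ℤ) := by
      have h := (E.poleLE A r).mul (poleLE_cellSeries c.coord n)
      rw [c.cellSeries_coord] at h
      exact h.mono (by push_cast; omega)
    have h := congrArg (fun x => HahnSeries.coeff x (i : ℤ))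
      (c.eq_sum_basis (c.mul_mem r _ (c.basis_mem n)) hP)
    rw [cellEq, c.cellSeries_coord, sub_eq_zero]
    simpa [HahnSeries.coeff_sum, Cell.coord, hi] using h

/-- The cell with given coordinates. -/
def Cell.ofCoord {a : ℕ → ℕ → A} (ha : IsCellCoord E a) : Cell E A where
  W := Submodule.span A (Set.range (cellSeries a))
  one_mem := by
    have h : cellSeries a 0 = 1 := by
      refine laurent_ext (fun i hi => ?_) (fun i => ?_)
      · rw [cellSeries_coeff_polar _ _ _ hi, HahnSeries.coeff_one]; simp
      · rw [show ((i : ℤ) + 1) = ((i + 1 : ℕ) : ℤ) by push_cast; rfl,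
          cellSeries_coeff_tail _ _ _ (by omega), ha.zero_left, HahnSeries.coeff_one,
          if_neg (by omega)]
    exact h ▸ Submodule.subset_span ⟨0, rfl⟩
  mul_mem r w hw := by
    induction hw using Submodule.span_induction with
    | zero => simp
    | add x y _ _ hx hy => rw [mul_add]; exact add_mem hx hy
    | smul b x _ hx =>
      rw [laurent_smul_eq, mul_left_comm, ← laurent_smul_eq]
      exact Submodule.smul_mem _ _ hx
    | mem x hx =>
      obtain ⟨n, rfl⟩ := hx
      have : E.emb A r * cellSeries a n = ∑ j ∈ Finset.range (n + E.pole r + 1),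
          (E.emb A r * cellSeries a n).coeff (-(j : ℤ)) • cellSeries a j := by
        refine laurent_ext (fun i hi => ?_) (fun i => ?_)
        · rw [HahnSeries.coeff_sum]
          simp only [HahnSeries.coeff_smul, cellSeries_coeff_polar _ _ _ hi, smul_eq_mul, mul_ite,
            mul_one, mul_zero]
          by_cases h : i < -((n + E.pole r : ℕ) : ℤ)
          · rw [((E.poleLE A r).mul (poleLE_cellSeries a n)) i (by push_cast at h ⊢; omega),
              Finset.sum_eq_zero]
            intro j hj
            rw [if_neg]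
            have := Finset.mem_range.mp hj
            push_cast at h
            omega
          · rw [Finset.sum_eq_single_of_mem ((-i).toNat)
              (Finset.mem_range.mpr (by push_cast at h; omega))]
            · rw [if_pos (by omega), show -(((-i).toNat : ℕ) : ℤ) = i by omega]
            · intro j _ hj
              rw [if_neg (by omega)]
        · have he := ha.eqn r n (i + 1) (by omega)
          rw [cellEq, sub_eq_zero] at he
          rw [show ((i : ℤ) + 1) = ((i + 1 : ℕ) : ℤ) by push_cast; rfl, he, HahnSeries.coeff_sum]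
          exact Finset.sum_congr rfl fun j _ => by
            rw [HahnSeries.coeff_smul, cellSeries_coeff_tail _ _ _ (by omega), smul_eq_mul]
      rw [this]
      exact sum_mem fun j _ => Submodule.smul_mem _ _ (Submodule.subset_span ⟨j, rfl⟩)
  exists_basis n :=
    ⟨cellSeries a n, Submodule.subset_span ⟨n, rfl⟩, fun i hi => cellSeries_coeff_polar a n i hi⟩
  eq_zero_of_polar w hw h := by
    obtain ⟨l, rfl⟩ := Finsupp.mem_span_range_iff_exists_finsupp.mp hw
    suffices l = 0 by simp [this]
    ext m
    have hm := h (-(m : ℤ)) (by omega)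
    rw [Finsupp.sum, HahnSeries.coeff_sum] at hm
    simp only [HahnSeries.coeff_smul, cellSeries_coeff_polar _ _ _ (by omega : -(m : ℤ) ≤ 0),
      smul_eq_mul, mul_ite, mul_one, mul_zero, neg_inj, Nat.cast_inj] at hm
    simpa [Finset.sum_ite_eq, eq_comm] using hm

theorem Cell.ofCoord_basis {a : ℕ → ℕ → A} (ha : IsCellCoord E a) (n : ℕ) :
    (Cell.ofCoord ha).basis n = cellSeries a n :=
  (Cell.ofCoord ha).eq_of_polar ((Cell.ofCoord ha).basis_mem n)
    (Submodule.subset_span ⟨n, rfl⟩) fun i hi => by
      rw [(Cell.ofCoord ha).basis_coeff n i hi, cellSeries_coeff_polar _ _ _ hi]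

theorem Cell.ofCoord_coord {a : ℕ → ℕ → A} (ha : IsCellCoord E a) :
    (Cell.ofCoord ha).coord = a := by
  funext n i
  rw [Cell.coord, Cell.ofCoord_basis]
  split_ifs with h
  · subst h; exact (ha.zero_right n).symm
  · exact cellSeries_coeff_tail a n i h

theorem map_cellEq {B : Type u} [CommRing B] [Algebra k B] (φ : A →ₐ[k] B) (a : ℕ → ℕ → A)
    (r : R) (n i : ℕ) :
    φ (cellEq E a r n i) = cellEq E (fun n i => φ (a n i)) r n i := by
  have h : lmap (φ : A →+* B) (E.emb A r * cellSeries a n) =
      E.emb B r * cellSeries (fun n i => φ (a n i)) n := by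
    rw [map_mul, E.lmap_emb, lmap_cellSeries]; rfl
  simp only [cellEq, ← h, map_sub, map_sum, map_mul φ]
  rfl

theorem IsCellCoord.map {B : Type u} [CommRing B] [Algebra k B] {a : ℕ → ℕ → A}
    (ha : IsCellCoord E a) (φ : A →ₐ[k] B) : IsCellCoord E (fun n i => φ (a n i)) where
  zero_left i := by simp [ha.zero_left]
  zero_right n := by simp [ha.zero_right]
  eqn r n i hi := by rw [← map_cellEq, ha.eqn r n i hi, map_zero]

/-- Base change of a cell. -/
def Cell.map {B : Type u} [CommRing B] [Algebra k B] (c : Cell E A) (φ : A →ₐ[k] B) : Cell E B :=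
  Cell.ofCoord (c.isCellCoord.map φ)

theorem Cell.map_coord {B : Type u} [CommRing B] [Algebra k B] (c : Cell E A) (φ : A →ₐ[k] B) :
    (c.map φ).coord = fun n i => φ (c.coord n i) := Cell.ofCoord_coord _

theorem Cell.map_basis {B : Type u} [CommRing B] [Algebra k B] (c : Cell E A) (φ : A →ₐ[k] B)
    (n : ℕ) : (c.map φ).basis n = lmap (φ : A →+* B) (c.basis n) := by
  rw [← Cell.cellSeries_coord, Cell.map_coord, ← c.cellSeries_coord, lmap_cellSeries]; rfl

theorem Cell.lmap_mem_map {B : Type u} [CommRing B] [Algebra k B] (c : Cell E A) (φ : A →ₐ[k] B)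
    {w : LaurentSeries A} (hw : w ∈ c.W) : lmap (φ : A →+* B) w ∈ (c.map φ).W := by
  obtain ⟨D, hD⟩ := exists_poleLE w
  rw [c.eq_sum_basis hw hD, map_sum]
  refine sum_mem fun j _ => ?_
  rw [lmap_smul, ← c.map_basis]
  exact Submodule.smul_mem _ _ ((c.map φ).basis_mem j)

end Expansion

end Fermat.Agent.Jac
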