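import Fermat.Agent.Jac.BigCell.Series

/-!
An injective family of Laurent series over a field stays injective after extending coefficients.
-/

set_option autoImplicit false
set_option linter.unusedVariables false

noncomputable section

open scoped TensorProduct

namespace Fermat.Agent.Jac

universe u

variable {k : Type u} [Field k] {S : Type u} [AddCommGroup S] [Module k S]
  (c : ℤ → S →ₗ[k] k)

/-- If the functionals `c i` jointly detect zero on `S`, their extensions detect zero on `A ⊗ S`. -/
theorem tensor_eq_zero_of_coeff (hc : ∀ s : S, (∀ i, c i s = 0) → s = 0)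
    (A : Type u) [CommRing A] [Algebra k A] (y : A ⊗[k] S)
    (hy : ∀ i, TensorProduct.rid k A ((c i).lTensor A y) = 0) : y = 0 := by
  classical
  let b := Module.Basis.ofVectorSpace k S
  obtain ⟨a, rfl⟩ := (TensorProduct.equivFinsuppOfBasisRight (M := A) b).symm.surjective y
  let V : Submodule k S := Submodule.span k (b '' a.support)
  have : FiniteDimensional k V :=
    FiniteDimensional.span_of_finite k (a.support.finite_toSet.image b)
  let L : V →ₗ[k] (ℤ → k) := (LinearMap.pi c).comp V.subtype
  let K : Finset ℤ → Submodule k V := fun T =>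
    LinearMap.ker ((LinearMap.funLeft k k (fun i : T => (i : ℤ))).comp L)
  obtain ⟨T, hT⟩ : ∃ T, K T = ⊥ := by
    obtain ⟨_, ⟨T, rfl⟩, hmin⟩ := wellFounded_lt.has_min (Set.range K) ⟨_, ∅, rfl⟩
    refine ⟨T, Submodule.eq_bot_iff _ |>.mpr fun v hv => Subtype.ext (hc _ fun i => ?_)⟩
    have hle : K (insert i T) ≤ K T := fun w hw => LinearMap.mem_ker.mpr <| funext fun j =>
      congrFun (LinearMap.mem_ker.mp hw) ⟨j, Finset.mem_insert_of_mem j.2⟩
    have heq : K (insert i T) = K T := hle.lt_or_eq.resolve_left (hmin _ ⟨_, rfl⟩)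
    rw [← heq] at hv
    simpa [L] using congrFun (LinearMap.mem_ker.mp hv) ⟨i, Finset.mem_insert_self i T⟩
  obtain ⟨G, hG⟩ := LinearMap.exists_leftInverse_of_injective _ hT
  have hexp : ∀ i : ℤ, ∑ l ∈ a.support, algebraMap k A (c i (b l)) * a l = 0 := by
    intro i
    have h := hy i
    simp only [TensorProduct.equivFinsuppOfBasisRight_symm_apply, Finsupp.sum, map_sum,
      LinearMap.lTensor_tmul, TensorProduct.rid_tmul, Algebra.smul_def] at h
    exact h
  suffices a = 0 by simp [this]
  ext j
  by_contra hj
  have hj' : j ∈ a.support := Finsupp.mem_support_iff.mpr hj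
  obtain ⟨g, hg⟩ : ∃ g : T → k, ∀ l ∈ a.support,
      ∑ i, g i * c i (b l) = if l = j then 1 else 0 := by
    refine ⟨fun i => b.repr (G (Pi.single i 1) : S) j, fun l hl => ?_⟩
    have hv := congrArg (fun v : V => b.repr (v : S) j)
      (LinearMap.congr_fun hG ⟨b l, Submodule.subset_span ⟨l, hl, rfl⟩⟩)
    simp only [LinearMap.comp_apply, LinearMap.id_apply] at hv
    have hL : (LinearMap.funLeft k k (fun i : T => (i : ℤ))) (L ⟨b l, Submodule.subset_span
        ⟨l, hl, rfl⟩⟩) = fun i : T => c i (b l) := funext fun i => rfl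
    rw [hL, pi_eq_sum_univ' (fun i : T => c i (b l))] at hv
    simp only [map_sum, map_smul, Submodule.coe_sum, Submodule.coe_smul, Finsupp.coe_finsetSum,
      Finset.sum_apply, Finsupp.smul_apply, smul_eq_mul, b.repr_self, Finsupp.single_apply] at hv
    rw [← hv]
    exact Finset.sum_congr rfl fun i _ => mul_comm _ _
  refine hj ?_
  calc a j = ∑ l ∈ a.support, algebraMap k A (∑ i, g i * c i (b l)) * a l := by
        rw [Finset.sum_eq_single_of_mem j hj' fun l hl hlj => by rw [hg l hl, if_neg hlj]; simp,
          hg j hj', if_pos rfl, map_one, one_mul]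
    _ = ∑ i, algebraMap k A (g i) * ∑ l ∈ a.support, algebraMap k A (c i (b l)) * a l := by
        simp only [map_sum, map_mul, Finset.sum_mul, Finset.mul_sum, mul_assoc]
        rw [Finset.sum_comm]
    _ = 0 := by simp [hexp]

/-- The coefficient functionals of a ring map into Laurent series. -/
def coeffFunctional {S : Type u} [CommRing S] [Algebra k S] (e : S →+* LaurentSeries k)
    (he : ∀ a, e (algebraMap k S a) = HahnSeries.C a) (i : ℤ) : S →ₗ[k] k where
  toFun s := (e s).coeff i
  map_add' s s' := by simp
  map_smul' a s := by rw [Algebra.smul_def, map_mul, he, coeff_C_mul']; rfl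

end Fermat.Agent.Jac
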