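import Fermat.Agent.Jac.BigCell.Tensor

/-!
Invertible lattices in `A((z))` over the coordinate ring, given by dual bases.
-/

set_option autoImplicit false
set_option linter.unusedVariables false

noncomputable section

open HahnSeries
open scoped TensorProduct

attribute [local instance 2000] HahnSeries.instAlgebra

namespace Fermat.Agent.Jac

universe u

variable {k : Type u} [Field k] {R : Type u} [CommRing R] [Algebra k R]

namespace Expansion

variable (E : Expansion k R) (A : Type u) [CommRing A] [Algebra k A]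

/-- An invertible lattice with a dual basis. -/
structure Lattice where
  n : ℕ
  w : Fin n → LaurentSeries A
  w' : Fin n → LaurentSeries A
  dual_mem : ∀ i j, w' i * w j ∈ (E.expA A).range
  sum_eq : ∑ i, w' i * w i = 1

/-- The polar parts of `W` form exactly `A[z⁻¹]`. -/
def Polar {A : Type u} [CommRing A] (W : Submodule A (LaurentSeries A)) : Prop :=
  (∀ n : ℕ, ∃ w ∈ W, ∀ i : ℤ, i ≤ 0 → w.coeff i = if i = -(n : ℤ) then 1 else 0) ∧
    ∀ w ∈ W, (∀ i : ℤ, i ≤ 0 → w.coeff i = 0) → w = 0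

variable {E A}

theorem range_smul {x : LaurentSeries A} (hx : x ∈ (E.expA A).range) (a : A) :
    a • x ∈ (E.expA A).range :=
  Subalgebra.smul_mem _ hx a

theorem lmap_mem_range {B : Type u} [CommRing B] [Algebra k B] (φ : A →ₐ[k] B) {x : LaurentSeries A}
    (hx : x ∈ (E.expA A).range) : lmap (φ : A →+* B) x ∈ (E.expA B).range := by
  obtain ⟨r, rfl⟩ := hx
  exact ⟨E.coordMap φ r, (E.lmap_expA φ r).symm⟩

namespace Lattice

variable (L : Lattice E A)

/-- The underlying module. -/
def W : Submodule A (LaurentSeries A) where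
  carrier := {x | ∀ i, L.w' i * x ∈ (E.expA A).range}
  add_mem' := fun hx hy i => by rw [mul_add]; exact add_mem (hx i) (hy i)
  zero_mem' := fun i => by rw [mul_zero]; exact zero_mem _
  smul_mem' := fun a x hx i => by rw [mul_smul_comm]; exact range_smul (hx i) a

theorem mem_W {x : LaurentSeries A} : x ∈ L.W ↔ ∀ i, L.w' i * x ∈ (E.expA A).range := Iff.rfl

theorem w_mem (j : Fin L.n) : L.w j ∈ L.W := fun i => L.dual_mem i j

theorem expA_mul_mem (r : E.CoordRing A) {x : LaurentSeries A} (hx : x ∈ L.W) :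
    E.expA A r * x ∈ L.W := fun i => by
  rw [mul_left_comm]
  exact mul_mem ⟨r, rfl⟩ (hx i)

theorem sum_mem_W (r : Fin L.n → E.CoordRing A) : ∑ i, E.expA A (r i) * L.w i ∈ L.W :=
  sum_mem fun i _ => L.expA_mul_mem _ (L.w_mem i)

theorem eq_sum {x : LaurentSeries A} (hx : x ∈ L.W) :
    ∃ r : Fin L.n → E.CoordRing A, (∀ i, E.expA A (r i) = L.w' i * x) ∧
      x = ∑ i, E.expA A (r i) * L.w i := by
  choose r hr using hx
  refine ⟨r, hr, ?_⟩
  have hr' : ∀ i, E.expA A (r i) = L.w' i * x := hr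
  simp only [hr']
  rw [Finset.sum_congr rfl fun i _ => (mul_right_comm (L.w' i) x (L.w i)), ← Finset.sum_mul, L.sum_eq,
    one_mul]

theorem W_eq_of_dual {x : LaurentSeries A} : x ∈ L.W ↔
    ∃ r : Fin L.n → E.CoordRing A, x = ∑ i, E.expA A (r i) * L.w i :=
  ⟨fun h => let ⟨r, _, h'⟩ := L.eq_sum h; ⟨r, h'⟩, fun ⟨r, h⟩ => h ▸ L.sum_mem_W r⟩

variable {B : Type u} [CommRing B] [Algebra k B]

/-- Base change. -/
def map (φ : A →ₐ[k] B) : Lattice E B where
  n := L.n
  w i := lmap (φ : A →+* B) (L.w i)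
  w' i := lmap (φ : A →+* B) (L.w' i)
  dual_mem i j := by rw [← map_mul]; exact lmap_mem_range φ (L.dual_mem i j)
  sum_eq := by simp only [← map_mul, ← map_sum, L.sum_eq, map_one]

theorem map_map {C : Type u} [CommRing C] [Algebra k C] (φ : A →ₐ[k] B) (ψ : B →ₐ[k] C) :
    (L.map φ).map ψ = L.map (ψ.comp φ) := by
  simp only [map, lmap_lmap]
  rfl

theorem lmap_mem_map (φ : A →ₐ[k] B) {x : LaurentSeries A} (hx : x ∈ L.W) :
    lmap (φ : A →+* B) x ∈ (L.map φ).W := fun i => by
  change lmap (φ : A →+* B) (L.w' i) * _ ∈ _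
  rw [← map_mul]
  exact lmap_mem_range φ (hx i)

theorem map_le_span (φ : A →ₐ[k] B) :
    (L.map φ).W ≤ Submodule.span B (lmap (φ : A →+* B) '' (L.W : Set (LaurentSeries A))) := by
  intro x hx
  obtain ⟨r, hr⟩ := (L.map φ).W_eq_of_dual.mp hx
  rw [hr]
  refine Submodule.sum_mem _ fun i _ => ?_
  generalize r i = y
  induction y using coordRing_induction E B with
  | h b s =>
    rw [map_smul, smul_mul_assoc, E.expA_coordInc, ← E.lmap_emb A φ]
    change b • (lmap (φ : A →+* B) (E.emb A s) * lmap (φ : A →+* B) (L.w i)) ∈ _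
    rw [← map_mul, ← E.expA_coordInc]
    exact Submodule.smul_mem _ _ (Submodule.subset_span ⟨_, L.expA_mul_mem _ (L.w_mem i), rfl⟩)
  | hadd y z hy hz => rw [map_add, add_mul]; exact add_mem hy hz

/-- Product of lattices. -/
def mul (L' : Lattice E A) : Lattice E A where
  n := L.n * L'.n
  w p := L.w (finProdFinEquiv.symm p).1 * L'.w (finProdFinEquiv.symm p).2
  w' p := L.w' (finProdFinEquiv.symm p).1 * L'.w' (finProdFinEquiv.symm p).2
  dual_mem p q := by rw [mul_mul_mul_comm]; exact mul_mem (L.dual_mem _ _) (L'.dual_mem _ _)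
  sum_eq := by
    rw [Equiv.sum_comp finProdFinEquiv.symm
      (fun p : Fin L.n × Fin L'.n => L.w' p.1 * L'.w' p.2 * (L.w p.1 * L'.w p.2)),
      Fintype.sum_prod_type]
    simp only [mul_mul_mul_comm, ← Finset.mul_sum, L'.sum_eq, mul_one, L.sum_eq]

theorem mul_mem_mul (L' : Lattice E A) {x y : LaurentSeries A} (hx : x ∈ L.W) (hy : y ∈ L'.W) :
    x * y ∈ (L.mul L').W := fun p => by
  change L.w' _ * L'.w' _ * (x * y) ∈ _
  rw [mul_mul_mul_comm]
  exact mul_mem (hx _) (hy _)

/-- The dual lattice. -/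
def inv : Lattice E A where
  n := L.n
  w := L.w'
  w' := L.w
  dual_mem i j := by rw [mul_comm]; exact L.dual_mem j i
  sum_eq := by simp only [mul_comm (L.w _)]; exact L.sum_eq

/-- Scaling by a unit series. -/
def scale (u : (LaurentSeries A)ˣ) : Lattice E A where
  n := L.n
  w i := u * L.w i
  w' i := (↑u⁻¹ : LaurentSeries A) * L.w' i
  dual_mem i j := by rw [mul_mul_mul_comm, Units.inv_mul, one_mul]; exact L.dual_mem i j
  sum_eq := by
    simp only [mul_mul_mul_comm (↑u⁻¹ : LaurentSeries A), Units.inv_mul, one_mul]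
    exact L.sum_eq

theorem mem_scale (u : (LaurentSeries A)ˣ) {x : LaurentSeries A} :
    x ∈ (L.scale u).W ↔ (↑u⁻¹ : LaurentSeries A) * x ∈ L.W := by
  refine forall_congr' fun i => ?_
  change _ * _ * x ∈ _ ↔ _
  rw [mul_assoc, mul_left_comm]

end Lattice

end Expansion

end Fermat.Agent.Jac
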