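import Fermat.Agent.Jac.BigCell.Cell

/-!
The big cell is represented by a finitely generated algebra.
-/

set_option autoImplicit false
set_option linter.unusedVariables false

noncomputable section

open HahnSeries

namespace Fermat.Agent.Jac

universe u

variable {k : Type u} [Field k] {R : Type u} [CommRing R] [Algebra k R]

namespace Expansion

variable (E : Expansion k R) {A : Type u} [CommRing A] [Algebra k A]

/-- Polynomial ring in the coordinates of the big cell. -/
abbrev CoordPoly (k : Type u) [Field k] : Type u := MvPolynomial (ℕ × ℕ) k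

/-- The tautological coordinates. -/
def tautCoord (n i : ℕ) : CoordPoly k := MvPolynomial.X (n, i)

/-- The ideal of equations of the big cell. -/
def cellIdeal : Ideal (CoordPoly k) :=
  Ideal.span ({x | ∃ i, x = tautCoord 0 i} ∪ {x | ∃ n, x = tautCoord n 0} ∪
    {x | ∃ r n i, i ≠ 0 ∧ x = cellEq E tautCoord r n i})

/-- The coordinate ring of the big cell. -/
abbrev CellRing : Type u := CoordPoly k ⧸ cellIdeal E

/-- The universal coordinates. -/
def univCoord (n i : ℕ) : CellRing E := Ideal.Quotient.mkₐ k _ (tautCoord n i)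

theorem isCellCoord_univCoord : IsCellCoord E (univCoord E) where
  zero_left i := Ideal.Quotient.eq_zero_iff_mem.mpr (Ideal.subset_span (.inl (.inl ⟨i, rfl⟩)))
  zero_right n := Ideal.Quotient.eq_zero_iff_mem.mpr (Ideal.subset_span (.inl (.inr ⟨n, rfl⟩)))
  eqn r n i hi := (map_cellEq (Ideal.Quotient.mkₐ k (cellIdeal E)) tautCoord r n i).symm.trans
    (Ideal.Quotient.eq_zero_iff_mem.mpr (Ideal.subset_span (.inr ⟨r, n, i, hi, rfl⟩)))

/-- The universal cell. -/
def univCell : Cell E (CellRing E) := Cell.ofCoord (isCellCoord_univCoord E)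

theorem univCell_coord : (univCell E).coord = univCoord E := Cell.ofCoord_coord _

variable {E}

/-- The map classifying a cell. -/
def Cell.classify (c : Cell E A) : CellRing E →ₐ[k] A :=
  Ideal.Quotient.liftₐ (cellIdeal E) (MvPolynomial.aeval fun p : ℕ × ℕ => c.coord p.1 p.2) <| by
    intro x hx
    induction hx using Submodule.span_induction with
    | zero => simp
    | add x y _ _ hx hy => simp [hx, hy]
    | smul b x _ hx => simp [hx]
    | mem x hx =>
      rcases hx with (⟨i, rfl⟩ | ⟨n, rfl⟩) | ⟨r, n, i, hi, rfl⟩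
      · simpa [tautCoord] using c.isCellCoord.zero_left i
      · simpa [tautCoord] using c.isCellCoord.zero_right n
      · rw [map_cellEq]
        simpa [tautCoord] using c.isCellCoord.eqn r n i hi

theorem Cell.classify_univCoord (c : Cell E A) (n i : ℕ) :
    c.classify (univCoord E n i) = c.coord n i := by
  change MvPolynomial.aeval _ (tautCoord n i) = _
  simp [tautCoord]

/-- Cells over `A` are `k`-algebra maps from the coordinate ring. -/
def cellEquiv : (CellRing E →ₐ[k] A) ≃ Cell E A where
  toFun φ := (univCell E).map φ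
  invFun c := c.classify
  left_inv φ := by
    refine Ideal.Quotient.algHom_ext k (MvPolynomial.algHom_ext fun p => ?_)
    change ((univCell E).map φ).classify (univCoord E p.1 p.2) = φ (univCoord E p.1 p.2)
    rw [Cell.classify_univCoord, Cell.map_coord, univCell_coord]
  right_inv c := Cell.ext_of_coord <| by
    funext n i
    rw [Cell.map_coord, univCell_coord]
    exact Cell.classify_univCoord c n i

theorem map_map {B C : Type u} [CommRing B] [Algebra k B] [CommRing C] [Algebra k C] (c : Cell E A)
    (φ : A →ₐ[k] B) (ψ : B →ₐ[k] C) : (c.map φ).map ψ = c.map (ψ.comp φ) :=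
  Cell.ext_of_coord <| by funext n i; simp [Cell.map_coord]

theorem map_id (c : Cell E A) : c.map (AlgHom.id k A) = c :=
  Cell.ext_of_coord <| by funext n i; simp [Cell.map_coord]

theorem cellEquiv_natural {B : Type u} [CommRing B] [Algebra k B] (φ : CellRing E →ₐ[k] A)
    (ψ : A →ₐ[k] B) : cellEquiv (ψ.comp φ) = (cellEquiv φ).map ψ := (map_map _ _ _).symm

variable (E)

/-- Generators: coordinates of weight at most `M`. -/
def genSet (M : ℕ) : Set (CellRing E) := {x | ∃ n i, n + i ≤ M ∧ x = univCoord E n i}

theorem genSet_finite (M : ℕ) : (genSet E M).Finite := by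
  refine Set.Finite.subset (((Finset.range (M + 1) ×ˢ Finset.range (M + 1)).finite_toSet).image
    fun p => univCoord E p.1 p.2) ?_
  rintro _ ⟨n, i, h, rfl⟩
  exact ⟨(n, i), by simp; omega, rfl⟩

theorem basis_coeff_mem (S : Subalgebra k (CellRing E)) (w : ℕ)
    (hS : ∀ n i, n + i < w → univCoord E n i ∈ S) (n : ℕ) (q : ℤ) (hq : (n : ℤ) + q < w) :
    ((univCell E).basis n).coeff q ∈ S := by
  rcases le_or_gt q 0 with h | h
  · rw [(univCell E).basis_coeff n q h]
    split_ifs
    · exact one_mem S
    · exact zero_mem S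
  · obtain ⟨i, rfl⟩ : ∃ i : ℕ, q = (i : ℤ) := ⟨q.toNat, by omega⟩
    have h' : (univCell E).coord n i = ((univCell E).basis n).coeff (i : ℤ) := by
      rw [Cell.coord, if_neg (by omega)]
    rw [← h', univCell_coord]
    exact hS n i (by omega)

/-- The exchange along a function with a pole of order exactly `m`. -/
theorem coord_exchange_mem (S : Subalgebra k (CellRing E)) (f : R) (m : ℕ)
    (hlead : (E.e f).coeff (-(m : ℤ)) = 1) (hpole : PoleLE (E.e f) m) (n i : ℕ) (hi : i ≠ 0)
    (hS : ∀ n' i', n' + i' < n + m + i → univCoord E n' i' ∈ S) :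
    univCoord E n (i + m) - univCoord E (n + m) i ∈ S := by
  set c := univCell E
  have hf : PoleLE (E.emb (CellRing E) f) (m : ℤ) := hpole.lmap _
  have hb : PoleLE (c.basis n) (n : ℤ) := fun q hq => by
    rw [c.basis_coeff n q (by omega), if_neg (by omega)]
  have hsc : ∀ p : ℤ, (E.emb (CellRing E) f).coeff p ∈ S := fun p => by
    rw [emb, RingHom.comp_apply, lmap_coeff]; exact S.algebraMap_mem _
  have hcoeff : ∀ j : ℕ, (E.emb (CellRing E) f * c.basis n).coeff (-(j : ℤ)) ∈ S := fun j => by
    rw [coeff_mul_finite hf hb]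
    refine sum_mem fun p hp => mul_mem (hsc p) (basis_coeff_mem E S _ hS n _ ?_)
    have := Finset.mem_Icc.mp hp
    push_cast
    omega
  have h := congrArg (fun x => HahnSeries.coeff x (i : ℤ))
    (c.eq_sum_basis (c.mul_mem f _ (c.basis_mem n))
      (D := n + m) ((hf.mul hb).mono (by push_cast; omega)))
  simp only [HahnSeries.coeff_sum, HahnSeries.coeff_smul, smul_eq_mul] at h
  rw [Finset.sum_range_succ, coeff_mul_finite hf hb,
    ← Finset.add_sum_erase (a := -(m : ℤ)) _ _ (Finset.mem_Icc.mpr ⟨le_rfl, by omega⟩),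
    show -((n + m : ℕ) : ℤ) = -((m : ℤ) + n) by push_cast; ring, coeff_mul_bottom hf hb,
    c.basis_coeff n (-(n : ℤ)) (by omega), if_pos rfl] at h
  have hl : (E.emb (CellRing E) f).coeff (-(m : ℤ)) = 1 := by
    rw [emb, RingHom.comp_apply, lmap_coeff, hlead, map_one]
  rw [hl, one_mul, one_mul, one_mul] at h
  have e1 : (c.basis n).coeff ((i : ℤ) - -(m : ℤ)) = univCoord E n (i + m) := by
    rw [← univCell_coord, Cell.coord, if_neg (by omega)]
    congr 1; push_cast; ring
  have e2 : (c.basis (n + m)).coeff (i : ℤ) = univCoord E (n + m) i := by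
    rw [← univCell_coord, Cell.coord, if_neg hi]
  rw [e1, e2] at h
  have key : univCoord E n (i + m) - univCoord E (n + m) i =
      (∑ j ∈ Finset.range (n + m),
        (E.emb (CellRing E) f * c.basis n).coeff (-(j : ℤ)) * (c.basis j).coeff (i : ℤ)) -
      ∑ p ∈ (Finset.Icc (-(m : ℤ)) ((i : ℤ) + n)).erase (-(m : ℤ)),
        (E.emb (CellRing E) f).coeff p * (c.basis n).coeff ((i : ℤ) - p) := by
    linear_combination h
  rw [key]
  refine sub_mem (sum_mem fun j hj => mul_mem (hcoeff j) (basis_coeff_mem E S _ hS j _ ?_))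
    (sum_mem fun p hp => mul_mem (hsc p) (basis_coeff_mem E S _ hS n _ ?_))
  · have := Finset.mem_range.mp hj
    push_cast; omega
  · simp only [Finset.mem_erase, Finset.mem_Icc] at hp
    push_cast; omega

theorem exists_genSet : ∃ M, Algebra.adjoin k (genSet E M) = ⊤ := by
  obtain ⟨n₀, hn₀⟩ := E.exists_pole
  set m := n₀ + 1
  obtain ⟨f, hf1, hf2⟩ := hn₀ m (by omega)
  obtain ⟨g, hg1, hg2⟩ := hn₀ (m + 1) (by omega)
  refine ⟨2 * m + 1, ?_⟩
  set S := Algebra.adjoin k (genSet E (2 * m + 1))
  have main : ∀ w n i, n + i = w → univCoord E n i ∈ S := by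
    intro w
    induction w using Nat.strong_induction_on with
    | _ w IH =>
      by_cases hw : w ≤ 2 * m + 1
      · exact fun n i h => Algebra.subset_adjoin ⟨n, i, by omega, rfl⟩
      intro n
      induction n using Nat.strong_induction_on with
      | _ n IHn =>
        intro i hni
        rcases eq_or_ne i 0 with rfl | hi
        · rw [(isCellCoord_univCoord E).zero_right]; exact zero_mem S
        rcases eq_or_ne n 0 with rfl | hn
        · rw [(isCellCoord_univCoord E).zero_left]; exact zero_mem S
        have hS : ∀ n' i', n' + i' < w → univCoord E n' i' ∈ S :=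
          fun n' i' h => IH _ h n' i' rfl
        by_cases hnm : m ≤ n
        · obtain ⟨n', rfl⟩ : ∃ n', n = n' + m := ⟨n - m, by omega⟩
          have hx := coord_exchange_mem E S f m hf1 hf2 n' i hi
            (fun a b h => hS a b (by omega))
          have hy := IHn n' (by omega) (i + m) (by omega)
          simpa using sub_mem hy hx
        · obtain ⟨n', rfl⟩ : ∃ n', n = n' + 1 := ⟨n - 1, by omega⟩
          obtain ⟨i', rfl⟩ : ∃ i', i = i' + m := ⟨i - m, by omega⟩
          have hx := coord_exchange_mem E S f m hf1 hf2 (n' + 1) i' (by omega)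
            (fun a b h => hS a b (by omega))
          have hy := coord_exchange_mem E S g (m + 1) hg1 hg2 n' i' (by omega)
            (fun a b h => hS a b (by omega))
          have hz := IHn n' (by omega) (i' + (m + 1)) (by omega)
          rw [show n' + (m + 1) = n' + 1 + m by omega] at hy
          have := add_mem hx (sub_mem hz hy)
          simpa using this
  rw [eq_top_iff]
  rintro x -
  obtain ⟨p, rfl⟩ := Ideal.Quotient.mk_surjective x
  induction p using MvPolynomial.induction_on with
  | C a => exact S.algebraMap_mem a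
  | add p q hp hq => rw [map_add]; exact add_mem hp hq
  | mul_X p v hp => rw [map_mul]; exact mul_mem hp (main _ v.1 v.2 rfl)

instance cellRing_finiteType : Algebra.FiniteType k (CellRing E) := by
  obtain ⟨M, hM⟩ := exists_genSet E
  exact ⟨(genSet_finite E M).toFinset, by rw [Set.Finite.coe_toFinset, hM]⟩

end Expansion

end Fermat.Agent.Jac
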