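import Fermat.Agent.Jac.BigCell.Lattice

/-!
Semicontinuity for invertible lattices: having polar parts exactly `A[z⁻¹]` is an open condition
on the base.
-/

set_option autoImplicit false
set_option linter.unusedVariables false

noncomputable section

open HahnSeries
open scoped TensorProduct

attribute [local instance 2000] HahnSeries.instAlgebra

namespace Fermat.Agent.Jac

universe u

variable {k : Type u} [Field k] {R : Type u} [CommRing R] [Algebra k R]
  {A : Type u} [CommRing A] [Algebra k A]

/-- A family with leading terms `z ^ (-n)` for all `n ≥ N`. -/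
structure Staircase (N : ℕ) (h : ℕ → LaurentSeries A) : Prop where
  lead : ∀ n, N ≤ n → (h n).coeff (-(n : ℤ)) = 1
  pole : ∀ n, N ≤ n → PoleLE (h n) n

namespace Staircase

variable {N : ℕ} {h : ℕ → LaurentSeries A}

/-- Reduction of poles by a staircase. -/
theorem reduce (hs : Staircase N h) (W : Submodule A (LaurentSeries A))
    (hW : ∀ n, N ≤ n → h n ∈ W) {x : LaurentSeries A} (hx : x ∈ W) :
    ∃ y ∈ W, PoleLE y ((N : ℤ) - 1) ∧ x - y ∈ Submodule.span A (h '' {n | N ≤ n}) := by
  obtain ⟨D, hD⟩ := exists_poleLE x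
  induction D using Nat.strong_induction_on generalizing x with
  | _ D IH =>
    by_cases hDN : D < N
    · exact ⟨x, hx, hD.mono (by omega), by simp⟩
    have hmem : h D ∈ Submodule.span A (h '' {n | N ≤ n}) :=
      Submodule.subset_span ⟨D, (by simp only [Set.mem_setOf_eq]; omega), rfl⟩
    let x' := x - x.coeff (-(D : ℤ)) • h D
    have hx' : x' ∈ W := sub_mem hx (W.smul_mem _ (hW D (by omega)))
    have hp : PoleLE x' ((D : ℤ) - 1) := by
      intro i hi
      rcases (show i ≤ -(D : ℤ) by omega).lt_or_eq with h1 | rfl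
      · exact (hD.sub ((hs.pole D (by omega)).smul _)) i h1
      · simp [x', hs.lead D (by omega)]
    rcases Nat.eq_zero_or_pos D with rfl | hpos
    · have h0 : N = 0 := by omega
      subst h0
      exact ⟨x', hx', by simpa using hp, by simpa [x'] using Submodule.smul_mem _ _ hmem⟩
    · obtain ⟨y, hy, hyp, hmem'⟩ := IH (D - 1) (by omega) hx' (hp.mono (by omega))
      refine ⟨y, hy, hyp, ?_⟩
      have := add_mem hmem' (Submodule.smul_mem _ (x.coeff (-(D : ℤ))) hmem)
      rwa [show x' - y + x.coeff (-(D : ℤ)) • h D = x - y by simp only [x']; abel] at this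

/-- Combinations of a staircase have no low part. -/
theorem eq_zero (hs : Staircase N h) {x : LaurentSeries A}
    (hx : x ∈ Submodule.span A (h '' {n | N ≤ n})) (hp : PoleLE x ((N : ℤ) - 1)) : x = 0 := by
  classical
  obtain ⟨l, hl, rfl⟩ := (Finsupp.mem_span_image_iff_linearCombination A).mp hx
  suffices l = 0 by simp [this]
  by_contra hne
  have hne' : l.support.Nonempty := Finsupp.support_nonempty_iff.mpr hne
  let m := l.support.max' hne'
  have hm : m ∈ l.support := l.support.max'_mem hne'
  have hN : ∀ n ∈ l.support, N ≤ n := fun n hn => hl hn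
  have h0 := hp (-(m : ℤ)) (by have := hN m hm; omega)
  rw [Finsupp.linearCombination_apply, Finsupp.sum, HahnSeries.coeff_sum,
    Finset.sum_eq_single_of_mem m hm] at h0
  · rw [HahnSeries.coeff_smul, hs.lead m (hN m hm), smul_eq_mul, mul_one] at h0
    exact Finsupp.mem_support_iff.mp hm h0
  · intro n hn hnm
    have : n < m := lt_of_le_of_ne (l.support.le_max' n hn) hnm
    rw [HahnSeries.coeff_smul, hs.pole n (hN n hn) _ (by omega), smul_zero]

end Staircase

namespace Expansion

variable (E : Expansion k R)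

/-- Functions with a prescribed pole and a gap after it. -/
theorem exists_flat (L : ℕ) : ∃ M₀ : ℕ, ∀ m, M₀ ≤ m → ∃ g : R, PoleLE (E.e g) m ∧
    (E.e g).coeff (-(m : ℤ)) = 1 ∧
      ∀ i : ℤ, -(m : ℤ) < i → i ≤ -(m : ℤ) + L → (E.e g).coeff i = 0 := by
  obtain ⟨n₀, hn₀⟩ := E.exists_pole
  induction L with
  | zero =>
    refine ⟨n₀, fun m hm => ?_⟩
    obtain ⟨g, hg1, hg2⟩ := hn₀ m hm
    exact ⟨g, hg2, hg1, fun i h1 h2 => by omega⟩
  | succ L ih =>
    obtain ⟨M₀, hM⟩ := ih
    refine ⟨max M₀ (n₀ + L + 1), fun m hm => ?_⟩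
    obtain ⟨g, hg1, hg2, hg3⟩ := hM m (le_trans (le_max_left _ _) hm)
    have hle : n₀ + L + 1 ≤ m := le_trans (le_max_right _ _) hm
    obtain ⟨f, hf1, hf2⟩ := hn₀ (m - (L + 1)) (by omega)
    have hcast : ((m - (L + 1) : ℕ) : ℤ) = (m : ℤ) - (L + 1) := by omega
    rw [hcast] at hf1 hf2
    let a := (E.e g).coeff (-(m : ℤ) + (L + 1))
    have key : ∀ i : ℤ, (E.e (g - algebraMap k R a * f)).coeff i =
        (E.e g).coeff i - a * (E.e f).coeff i := by
      intro i
      rw [map_sub, map_mul, E.e_const, HahnSeries.coeff_sub, coeff_C_mul']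
    refine ⟨g - algebraMap k R a * f, fun i hi => ?_, ?_, fun i h1 h2 => ?_⟩
    · rw [key, hg1 i hi, hf2 i (by omega), mul_zero, sub_zero]
    · rw [key, hg2, hf2 _ (by omega), mul_zero, sub_zero]
    · rw [key]
      push_cast at h2
      rcases lt_or_eq_of_le h2 with h2 | rfl
      · rw [hg3 i h1 (by omega), hf2 i (by omega), mul_zero, sub_zero]
      · rw [show -(m : ℤ) + ((L : ℤ) + 1) = -((m : ℤ) - (L + 1)) by ring] at *
        rw [hf1, mul_one, sub_eq_zero]
        simp only [a]
        congr 1
        ring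

/-- Functions of bounded pole have finitely many generators. -/
theorem exists_bounded_gen (A : Type u) [CommRing A] [Algebra k A] (D : ℕ) :
    ∃ (d : ℕ) (b : Fin d → R), ∀ r : E.CoordRing A, PoleLE (E.expA A r) D →
      E.expA A r ∈ Submodule.span A (Set.range fun j => E.emb A (b j)) := by
  classical
  obtain ⟨n₀, hn₀⟩ := E.exists_pole
  choose f hf1 hf2 using hn₀
  let N := max n₀ D + 1
  let V : Submodule k R :=
    { carrier := {r | PoleLE (E.e r) ((N : ℤ) - 1)}
      add_mem' := fun hx hy => by
        simp only [Set.mem_setOf_eq, map_add] at *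
        exact hx.add hy
      zero_mem' := by simp only [Set.mem_setOf_eq, map_zero]; exact poleLE_zero _
      smul_mem' := fun a r hr => by
        simp only [Set.mem_setOf_eq, Algebra.smul_def, map_mul, E.e_const] at *
        intro i hi
        rw [coeff_C_mul', hr i hi, mul_zero] }
  let φ : V →ₗ[k] (Fin N → k) :=
    { toFun := fun r j => (E.e r.1).coeff (-(j : ℤ))
      map_add' := fun r s => by ext j; simp
      map_smul' := fun a r => by
        ext j
        change (E.e (a • (r : R))).coeff _ = a * _
        rw [Algebra.smul_def, map_mul, E.e_const, coeff_C_mul'] }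
  have hφ : Function.Injective φ := by
    rw [injective_iff_map_eq_zero]
    intro r hr
    have h0 : PoleLE (E.e r.1) (-1) := by
      intro i hi
      by_cases h : i < -((N : ℤ) - 1)
      · exact r.2 i h
      · have := congrFun hr ⟨(-i).toNat, by omega⟩
        simp only [φ, LinearMap.coe_mk, AddHom.coe_mk] at this
        rwa [show -(((-i).toNat : ℕ) : ℤ) = i by omega] at this
    obtain ⟨a, ha⟩ := E.const_of_no_pole r.1 (h0.mono (by omega))
    have := h0 0 (by omega)
    rw [ha, E.e_const, HahnSeries.C_apply, HahnSeries.coeff_single_same] at this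
    exact Subtype.ext (by rw [ha, this, map_zero]; rfl)
  have : Module.Finite k V := Module.Finite.of_injective φ hφ
  let b := Module.finBasis k V
  refine ⟨Module.finrank k V, fun j => (b j).1, fun r hr => ?_⟩
  let h : ℕ → LaurentSeries A := fun n => if hn : n₀ ≤ n then E.emb A (f n hn) else 0
  have hs : Staircase N h := by
    refine ⟨fun n hn => ?_, fun n hn => ?_⟩
    · simp only [h, dif_pos (show n₀ ≤ n by omega)]
      simp [emb, hf1]
    · simp only [h, dif_pos (show n₀ ≤ n by omega)]
      exact (hf2 n _).lmap _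
  let T := Submodule.span A (Set.range fun j => E.emb A (b j).1)
  let S := Submodule.span A (h '' {n | N ≤ n})
  have hT : ∀ y ∈ T, PoleLE y ((N : ℤ) - 1) := by
    intro y hy
    induction hy using Submodule.span_induction with
    | zero => exact poleLE_zero _
    | add _ _ _ _ h1 h2 => exact h1.add h2
    | smul a _ _ h1 => exact h1.smul a
    | mem y hy =>
      obtain ⟨j, rfl⟩ := hy
      exact (b j).2.lmap _
  have hdec : ∀ s : R, E.emb A s ∈ T ⊔ S := by
    intro s
    obtain ⟨D', hD'⟩ := exists_poleLE (E.e s)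
    induction D' using Nat.strong_induction_on generalizing s with
    | _ D' IH =>
      by_cases hlow : D' < N
      · refine Submodule.mem_sup_left ?_
        have hmem : s ∈ V := hD'.mono (by omega)
        have hsum := congrArg Subtype.val (b.sum_repr ⟨s, hmem⟩)
        simp only [Submodule.coe_sum, Submodule.coe_smul] at hsum
        rw [← hsum, map_sum]
        refine Submodule.sum_mem _ fun j _ => ?_
        rw [Algebra.smul_def, map_mul, E.emb_const, ← laurent_smul_eq]
        exact Submodule.smul_mem _ _ (Submodule.subset_span ⟨j, rfl⟩)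
      · let a := (E.e s).coeff (-(D' : ℤ))
        let s' := s - algebraMap k R a * f D' (by omega)
        have hp : PoleLE (E.e s') ((D' - 1 : ℕ) : ℤ) := by
          intro i hi
          rw [map_sub, map_mul, E.e_const, HahnSeries.coeff_sub, coeff_C_mul']
          rcases (show i ≤ -(D' : ℤ) by omega).lt_or_eq with h1 | rfl
          · rw [hD' i h1, hf2 _ _ i h1, mul_zero, sub_zero]
          · rw [hf1, mul_one, sub_self]
        have h1 := IH (D' - 1) (by omega) s' hp
        have h2 : E.emb A s = E.emb A s' + algebraMap k A a • h D' := by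
          simp only [s', map_sub, map_mul, E.emb_const, h, dif_pos (show n₀ ≤ D' by omega),
            laurent_smul_eq]
          ring
        rw [h2]
        exact add_mem h1 (Submodule.mem_sup_right
          (Submodule.smul_mem _ _ (Submodule.subset_span ⟨D', by simp; omega, rfl⟩)))
  have hall : E.expA A r ∈ T ⊔ S := by
    clear hr
    induction r using coordRing_induction E A with
    | h a s => rw [map_smul, E.expA_coordInc]; exact Submodule.smul_mem _ _ (hdec s)
    | hadd x y hx hy => rw [map_add]; exact add_mem hx hy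
  obtain ⟨y, hy, s, hsS, hys⟩ := Submodule.mem_sup.mp hall
  have hs0 : s = 0 := hs.eq_zero hsS <| by
    rw [show s = E.expA A r - y from eq_sub_of_add_eq' hys]
    exact (hr.mono (by omega)).sub (hT y hy)
  rw [← hys, hs0, add_zero]
  exact hy

namespace Lattice

variable {E} (L : Lattice E A)

/-- The lattice contains a staircase. -/
theorem exists_staircase : ∃ (N : ℕ) (h : ℕ → LaurentSeries A), Staircase N h ∧
    ∀ n, N ≤ n → h n ∈ L.W := by
  classical
  choose D₁ hD₁ using fun i => exists_poleLE (L.w i)
  choose D₂ hD₂ using fun i => exists_poleLE (L.w' i)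
  let D := Finset.univ.sup fun i => max (D₁ i) (D₂ i)
  have hw : ∀ i, PoleLE (L.w i) D := fun i => (hD₁ i).mono (by
    have := Finset.le_sup (f := fun i => max (D₁ i) (D₂ i)) (Finset.mem_univ i)
    omega)
  have hw' : ∀ i, PoleLE (L.w' i) D := fun i => (hD₂ i).mono (by
    have := Finset.le_sup (f := fun i => max (D₁ i) (D₂ i)) (Finset.mem_univ i)
    omega)
  obtain ⟨M₀, hM⟩ := E.exists_flat (2 * D)
  choose g hg1 hg2 hg3 using hM
  let G : ℕ → LaurentSeries A := fun m => if hm : M₀ ≤ m then E.emb A (g m hm) else 0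
  have hG : ∀ m, M₀ ≤ m → PoleLE (G m - single (-(m : ℤ)) 1) ((m : ℤ) - (2 * D + 1)) := by
    intro m hm i hi
    simp only [G, dif_pos hm, HahnSeries.coeff_sub, emb, RingHom.comp_apply, lmap_coeff]
    rcases lt_trichotomy i (-(m : ℤ)) with h1 | rfl | h1
    · rw [hg1 m hm i h1, map_zero, HahnSeries.coeff_single_of_ne (by omega), sub_zero]
    · rw [hg2 m hm, map_one, HahnSeries.coeff_single_same, sub_self]
    · rw [hg3 m hm i h1 (by push_cast; omega), map_zero,
        HahnSeries.coeff_single_of_ne (by omega), sub_zero]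
  let I := Finset.Icc (-(D : ℤ)) D
  let tr : Fin L.n → LaurentSeries A := fun i => ∑ j ∈ I, single j ((L.w' i).coeff j)
  have htr : ∀ i, PoleLE (L.w' i - tr i) (-((D : ℤ) + 1)) := by
    intro i q hq
    simp only [tr, HahnSeries.coeff_sub, HahnSeries.coeff_sum]
    by_cases hqI : q ∈ I
    · rw [Finset.sum_eq_single_of_mem q hqI fun j _ hj => HahnSeries.coeff_single_of_ne hj.symm,
        HahnSeries.coeff_single_same, sub_self]
    · rw [Finset.sum_eq_zero fun j hj => HahnSeries.coeff_single_of_ne (ne_of_mem_of_not_mem hj hqI).symm,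
        sub_zero]
      exact hw' i q (by simp only [I, Finset.mem_Icc, not_and_or, not_le] at hqI; omega)
  refine ⟨M₀ + D + 1, fun n => ∑ i, ∑ j ∈ I, (L.w' i).coeff j • (G ((n : ℤ) - j).toNat * L.w i),
    ?_, fun n hn => sum_mem fun i _ => sum_mem fun j hj => L.W.smul_mem _ ?_⟩
  · suffices H : ∀ n, M₀ + D + 1 ≤ n →
        PoleLE ((∑ i, ∑ j ∈ I, (L.w' i).coeff j • (G ((n : ℤ) - j).toNat * L.w i)) -
          single (-(n : ℤ)) 1) ((n : ℤ) - 1) by
      refine ⟨fun n hn => ?_, fun n hn i hi => ?_⟩
      · have := H n hn (-(n : ℤ)) (by omega)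
        rwa [HahnSeries.coeff_sub, HahnSeries.coeff_single_same, sub_eq_zero] at this
      · have := H n hn i (by omega)
        rwa [HahnSeries.coeff_sub, HahnSeries.coeff_single_of_ne (by omega), sub_zero] at this
    intro n hn
    have hsplit : (∑ i, ∑ j ∈ I, (L.w' i).coeff j • (G ((n : ℤ) - j).toNat * L.w i)) -
        single (-(n : ℤ)) 1 =
        (∑ i, ∑ j ∈ I, (L.w' i).coeff j •
          ((G ((n : ℤ) - j).toNat - single (-(((n : ℤ) - j).toNat : ℕ) : ℤ) 1) * L.w i)) -
        ∑ i, single (-(n : ℤ)) 1 * ((L.w' i - tr i) * L.w i) := by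
      have e1 : ∀ i, ∑ j ∈ I, (L.w' i).coeff j •
          (single (-(((n : ℤ) - j).toNat : ℕ) : ℤ) 1 * L.w i) =
            single (-(n : ℤ)) 1 * (tr i * L.w i) := by
        intro i
        simp only [tr, Finset.sum_mul, Finset.mul_sum]
        refine Finset.sum_congr rfl fun j hj => ?_
        simp only [I, Finset.mem_Icc] at hj
        rw [← mul_assoc, HahnSeries.single_mul_single, one_mul, ← smul_mul_assoc,
          show -(((n : ℤ) - j).toNat : ℤ) = -(n : ℤ) + j by omega]
        congr 1
        ext q
        by_cases hq : q = -(n : ℤ) + j <;> simp [hq]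
      simp only [sub_mul, smul_sub, Finset.sum_sub_distrib, e1, mul_sub, ← Finset.mul_sum,
        L.sum_eq, mul_one]
      abel
    rw [hsplit]
    refine PoleLE.sub (PoleLE.sum _ _ fun i _ => PoleLE.sum _ _ fun j hj => PoleLE.smul ?_ _)
      (PoleLE.sum _ _ fun i _ => ?_)
    · simp only [I, Finset.mem_Icc] at hj
      exact ((hG _ (by omega)).mul (hw i)).mono (by omega)
    · have hs : PoleLE (single (-(n : ℤ)) (1 : A)) n := fun q hq =>
        HahnSeries.coeff_single_of_ne (by omega)
      exact (hs.mul ((htr i).mul (hw i))).mono (by omega)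
  · simp only [I, Finset.mem_Icc] at hj
    simp only [G, dif_pos (show M₀ ≤ ((n : ℤ) - j).toNat by omega), ← E.expA_coordInc]
    exact L.expA_mul_mem _ (L.w_mem i)

/-- Off the divisor of `a`, the polar parts of the lattice are exactly `A[z⁻¹]`. -/
def LocallyGood (a : A) : Prop :=
  (∀ n : ℕ, ∃ w ∈ L.W, ∀ i : ℤ, i ≤ 0 → w.coeff i = if i = -(n : ℤ) then a else 0) ∧
    ∀ w ∈ L.W, (∀ i : ℤ, i ≤ 0 → w.coeff i = 0) → a • w = 0

theorem locallyGood_one_iff : L.LocallyGood 1 ↔ Polar L.W := by
  simp only [LocallyGood, Polar, one_smul]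

/-- The polar property spreads out from a field-valued point. -/
theorem exists_locallyGood {K : Type u} [Field K] [Algebra k K] (φ : A →ₐ[k] K)
    (hK : Polar (L.map φ).W) : ∃ a : A, φ a ≠ 0 ∧ L.LocallyGood a := by
  classical
  obtain ⟨N, h, hs, hmem⟩ := L.exists_staircase
  choose D hD using fun i => exists_poleLE (L.w' i)
  obtain ⟨d, b, hb⟩ := E.exists_bounded_gen A (N + Finset.univ.sup D)
  let v : Fin d × Fin L.n → LaurentSeries A := fun p => E.emb A (b p.1) * L.w p.2
  have hv : ∀ p, v p ∈ L.W := fun p => by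
    simp only [v, ← E.expA_coordInc]; exact L.expA_mul_mem _ (L.w_mem _)
  let S := Submodule.span A (h '' {n | N ≤ n})
  have hdec : ∀ x ∈ L.W, ∃ y ∈ L.W, PoleLE y ((N : ℤ) - 1) ∧ x - y ∈ S := fun x hx =>
    hs.reduce L.W hmem hx
  have huniq : ∀ y ∈ S, PoleLE y ((N : ℤ) - 1) → y = 0 := fun y hy hp => hs.eq_zero hy hp
  choose u huW huP huS using fun p => hdec (v p) (hv p)
  have hlow : ∀ x ∈ L.W, PoleLE x ((N : ℤ) - 1) →
      ∃ c : Fin d × Fin L.n → A, x = ∑ p, c p • u p := by
    intro x hx hp
    obtain ⟨r, hr, hxr⟩ := L.eq_sum hx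
    have hrb : ∀ i, E.expA A (r i) ∈ Submodule.span A (Set.range fun j => E.emb A (b j)) := by
      intro i
      refine hb _ ?_
      rw [hr]
      exact ((hD i).mul hp).mono (by have := Finset.le_sup (f := D) (Finset.mem_univ i); omega)
    choose c' hc' using fun i => (Submodule.mem_span_range_iff_exists_fun A).mp (hrb i)
    refine ⟨fun p => c' p.2 p.1, sub_eq_zero.mp (huniq _ ?_ ?_)⟩
    · have hxv : x = ∑ p : Fin d × Fin L.n, c' p.2 p.1 • v p := by
        rw [Fintype.sum_prod_type, Finset.sum_comm]
        conv_lhs => rw [hxr]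
        simp only [v, ← hc', Finset.sum_mul, smul_mul_assoc]
      conv in x - _ => rw [hxv]
      rw [← Finset.sum_sub_distrib]
      exact sum_mem fun p _ => by rw [← smul_sub]; exact Submodule.smul_mem _ _ (huS p)
    · exact hp.sub (PoleLE.sum _ _ fun p _ => (huP p).smul _)
  -- surjectivity of the polar map at the point
  let π : LaurentSeries A → Fin N → A := fun x j => x.coeff (-(j : ℤ))
  let πK : Fin d × Fin L.n → Fin N → K := fun p j => φ (π (u p) j)
  have hspan : Submodule.span K (Set.range πK) = ⊤ := by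
    rw [eq_top_iff]
    intro t _
    obtain ⟨w, hw, hwp⟩ : ∃ w ∈ (L.map φ).W, PoleLE w ((N : ℤ) - 1) ∧
        ∀ j : Fin N, w.coeff (-(j : ℤ)) = t j := by
      choose e heW he using hK.1
      refine ⟨∑ j : Fin N, t j • e j, sum_mem fun j _ => Submodule.smul_mem _ _ (heW j),
        PoleLE.sum _ _ fun j _ => ?_, fun j => ?_⟩
      · refine PoleLE.smul (fun i hi => ?_) _
        rw [he _ i (by omega), if_neg (by omega)]
      · rw [HahnSeries.coeff_sum, Finset.sum_eq_single_of_mem j (Finset.mem_univ j)]
        · rw [HahnSeries.coeff_smul, he _ _ (by omega), if_pos rfl, smul_eq_mul, mul_one]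
        · intro l _ hl
          rw [HahnSeries.coeff_smul, he _ _ (by omega), if_neg, smul_zero]
          intro e'
          exact hl (Fin.ext (by omega))
    have hsK : Staircase N fun n => lmap (φ : A →+* K) (h n) :=
      ⟨fun n hn => by simp [hs.lead n hn], fun n hn => (hs.pole n hn).lmap _⟩
    let T : Submodule K (LaurentSeries K) :=
      Submodule.span K (Set.range fun p => lmap (φ : A →+* K) (u p))
    let SK : Submodule K (LaurentSeries K) :=
      Submodule.span K ((fun n => lmap (φ : A →+* K) (h n)) '' {n | N ≤ n})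
    have hwTS : w ∈ T ⊔ SK := by
      refine (Submodule.span_le.mpr ?_ : _ ≤ T ⊔ SK) (L.map_le_span φ hw)
      rintro _ ⟨x, hx, rfl⟩
      obtain ⟨y, hy, hyp, hyS⟩ := hdec x hx
      obtain ⟨c', hc'⟩ := hlow y hy hyp
      rw [← sub_add_cancel x y, map_add]
      refine add_mem (Submodule.mem_sup_right ?_) (Submodule.mem_sup_left ?_)
      · obtain ⟨l, hl, hl'⟩ := (Finsupp.mem_span_image_iff_linearCombination A).mp hyS
        rw [← hl', Finsupp.linearCombination_apply, Finsupp.sum, map_sum]
        refine sum_mem fun n hn => ?_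
        rw [lmap_smul]
        exact Submodule.smul_mem _ _ (Submodule.subset_span ⟨n, hl hn, rfl⟩)
      · rw [hc', map_sum]
        refine sum_mem fun p _ => ?_
        rw [lmap_smul]
        exact Submodule.smul_mem _ _ (Submodule.subset_span ⟨p, rfl⟩)
    obtain ⟨y, hy, s, hsS, hys⟩ := Submodule.mem_sup.mp hwTS
    obtain ⟨c', hc'⟩ := (Submodule.mem_span_range_iff_exists_fun K).mp hy
    have hs0 : s = 0 := by
      refine hsK.eq_zero hsS ?_
      rw [show s = w - y from eq_sub_of_add_eq' hys, ← hc']
      exact hwp.1.sub (PoleLE.sum _ _ fun p _ => ((huP p).lmap _).smul _)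
    refine (Submodule.mem_span_range_iff_exists_fun K).mpr ⟨c', ?_⟩
    funext j
    rw [← hwp.2 j, ← hys, hs0, add_zero, ← hc']
    simp [πK, π, HahnSeries.coeff_sum]
  -- choose a basis among the images
  obtain ⟨g, hg⟩ : ∃ g : Fin N → Fin d × Fin L.n,
      (Matrix.of fun i j => πK (g i) j).det ≠ 0 := by
    obtain ⟨s, hsub, hspan', hli⟩ := exists_linearIndependent K (Set.range πK)
    rw [hspan] at hspan'
    let B := Module.Basis.mk hli (by rw [Subtype.range_coe, hspan'])
    let e := B.indexEquiv (Pi.basisFun K (Fin N))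
    choose g hg using fun i : Fin N => hsub (e.symm i).2
    refine ⟨g, ?_⟩
    have hind : LinearIndependent K fun i => πK (g i) := by
      rw [show (fun i => πK (g i)) = Subtype.val ∘ e.symm from funext hg]
      exact hli.comp _ e.symm.injective
    exact ((Matrix.isUnit_iff_isUnit_det _).mp
      (Matrix.linearIndependent_rows_iff_isUnit.mp hind)).ne_zero
  let Mt : Matrix (Fin N) (Fin N) A := Matrix.of fun i j => π (u (g i)) j
  let f := Mt.det
  have hfK : φ f ≠ 0 := by
    rw [show φ f = ((φ : A →+* K).mapMatrix Mt).det from RingHom.map_det (φ : A →+* K) Mt]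
    exact hg
  -- the reductions
  let lift : (Fin N → A) → LaurentSeries A := fun t =>
    ∑ i, (∑ j, t j * Mt.adjugate j i) • u (g i)
  have hliftW : ∀ t, lift t ∈ L.W := fun t => sum_mem fun i _ => L.W.smul_mem _ (huW _)
  have hliftP : ∀ t, PoleLE (lift t) ((N : ℤ) - 1) := fun t =>
    PoleLE.sum _ _ fun i _ => (huP _).smul _
  have hπlift : ∀ t j, (lift t).coeff (-((j : Fin N) : ℤ)) = t j * f := by
    intro t j
    simp only [lift, HahnSeries.coeff_sum, HahnSeries.coeff_smul, smul_eq_mul, Finset.sum_mul]
    rw [Finset.sum_comm]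
    calc _ = ∑ j', t j' * ∑ i, Mt.adjugate j' i * Mt i j := by
          simp only [Finset.mul_sum, mul_assoc]; rfl
      _ = ∑ j', t j' * (f • (1 : Matrix (Fin N) (Fin N) A)) j' j := by
          rw [← Matrix.adjugate_mul]; rfl
      _ = t j * f := by
          rw [Finset.sum_eq_single_of_mem j (Finset.mem_univ j)]
          · simp
          · intro j' _ hj'; simp [hj']
  let x : Fin d × Fin L.n → LaurentSeries A := fun p => f • u p - lift (π (u p))
  have hxW : ∀ p, x p ∈ L.W := fun p => sub_mem (L.W.smul_mem _ (huW p)) (hliftW _)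
  have hxP : ∀ p, PoleLE (x p) ((N : ℤ) - 1) := fun p => ((huP p).smul _).sub (hliftP _)
  have hxπ : ∀ p (j : Fin N), (x p).coeff (-(j : ℤ)) = 0 := fun p j => by
    simp only [x, HahnSeries.coeff_sub, hπlift, HahnSeries.coeff_smul, smul_eq_mul, π]
    ring
  have hxpolar : ∀ p (i : ℤ), i ≤ 0 → (x p).coeff i = 0 := by
    intro p i hi
    by_cases hiN : i < -((N : ℤ) - 1)
    · exact hxP p i hiN
    · have := hxπ p ⟨(-i).toNat, by omega⟩
      rwa [show -(((-i).toNat : ℕ) : ℤ) = i by omega] at this
  let I : Ideal A := RingHom.ker (φ : A →+* K)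
  have hxI : ∀ p, ∃ c : Fin d × Fin L.n → A, (∀ q, c q ∈ I) ∧ x p = ∑ q, c q • u q := by
    intro p
    have h0 : lmap (φ : A →+* K) (x p) = 0 :=
      hK.2 _ (L.lmap_mem_map φ (hxW p)) fun i hi => by
        rw [lmap_coeff, hxpolar p i hi, map_zero]
    obtain ⟨r, hr, hxr⟩ := L.eq_sum (hxW p)
    have hker : ∀ i, r i ∈ I.map (algebraMap A (E.CoordRing A)) := by
      intro i
      let q : A →ₐ[k] A ⧸ I := Ideal.Quotient.mkₐ k I
      have hq : lmap (q : A →+* A ⧸ I) (x p) = 0 := by
        ext j
        rw [lmap_coeff, HahnSeries.coeff_zero]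
        refine Ideal.Quotient.eq_zero_iff_mem.mpr ?_
        have := congrArg (fun y => HahnSeries.coeff y j) h0
        rw [lmap_coeff, HahnSeries.coeff_zero] at this
        exact this
      have h1 : E.coordMap q (r i) = 0 := E.expA_injective _ (by
        rw [← E.lmap_expA, hr, map_mul, hq, mul_zero, map_zero])
      have h2 : (Algebra.TensorProduct.map q (AlgHom.id k R)) ((E.toCoord A).symm (r i)) = 0 := h1
      have h3 := (Algebra.TensorProduct.rTensor_ker (C := R) q
        (Ideal.Quotient.mkₐ_surjective k I)).le h2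
      rw [show RingHom.ker q = I from Ideal.mk_ker] at h3
      exact h3
    have hspanI : x p ∈ I • L.W := by
      rw [hxr]
      refine Submodule.sum_mem _ fun i _ => ?_
      suffices H : ∀ y ∈ I.map (algebraMap A (E.CoordRing A)), E.expA A y * L.w i ∈ I • L.W from
        H _ (hker i)
      intro y hy
      have hy' : ∀ z : E.CoordRing A, E.expA A (z * y) * L.w i ∈ I • L.W := by
        induction hy using Submodule.span_induction with
        | mem y hy =>
          obtain ⟨a, ha, rfl⟩ := hy
          intro z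
          rw [mul_comm z, ← Algebra.smul_def, map_smul, smul_mul_assoc]
          exact Submodule.smul_mem_smul ha (L.expA_mul_mem _ (L.w_mem i))
        | zero => intro z; simp
        | add y y' _ _ h1 h2 => intro z; rw [mul_add, map_add, add_mul]; exact add_mem (h1 z) (h2 z)
        | smul a y _ h1 => intro z; rw [smul_eq_mul, ← mul_assoc]; exact h1 _
      simpa using hy' 1
    have hdecI : ∀ y ∈ I • L.W, ∃ (c : Fin d × Fin L.n → A), (∀ q, c q ∈ I) ∧
        y - ∑ q, c q • u q ∈ S := by
      intro y hy
      refine Submodule.smul_induction_on hy (fun a ha z hz => ?_) (fun y y' h1 h2 => ?_)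
      ·
        obtain ⟨z', hz', hz'p, hzS⟩ := hdec z hz
        obtain ⟨c', hc'⟩ := hlow z' hz' hz'p
        refine ⟨fun q => a * c' q, fun q => I.mul_mem_right _ ha, ?_⟩
        simp only [mul_smul, ← Finset.smul_sum, ← hc', ← smul_sub]
        exact Submodule.smul_mem _ _ hzS
      · obtain ⟨c1, hc1, hy1⟩ := h1
        obtain ⟨c2, hc2, hy2⟩ := h2
        refine ⟨c1 + c2, fun q => add_mem (hc1 q) (hc2 q), ?_⟩
        simp only [Pi.add_apply, add_smul, Finset.sum_add_distrib]
        rw [add_sub_add_comm]
        exact add_mem hy1 hy2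
    obtain ⟨c', hc', hS⟩ := hdecI _ hspanI
    exact ⟨c', hc', sub_eq_zero.mp
      (huniq _ hS ((hxP p).sub (PoleLE.sum _ _ fun q _ => (huP q).smul _)))⟩
  choose c hcI hxc using hxI
  -- determinant trick
  let P : Matrix (Fin d × Fin L.n) (Fin d × Fin L.n) A := Matrix.of c
  let Q : Matrix (Fin d × Fin L.n) (Fin d × Fin L.n) A :=
    Matrix.scalar (Fin d × Fin L.n) (f ^ 2) - f • P
  have hQ : ∀ p, ∑ q, Q p q • x q = 0 := by
    intro p
    let t : Fin N → A := fun j => ∑ q, c p q * π (u q) j
    have ht : lift t = ∑ q, c p q • lift (π (u q)) := by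
      simp only [lift, t, Finset.sum_mul, Finset.smul_sum, smul_smul, Finset.mul_sum]
      rw [Finset.sum_comm]
      refine Finset.sum_congr rfl fun i _ => ?_
      rw [Finset.sum_comm (f := fun j q => c p q * π (u q) j * Mt.adjugate j i)]
      simp only [Finset.sum_smul, mul_assoc]
    have h1 : f • x p = (∑ q, c p q • x q) + lift t := by
      rw [ht, ← Finset.sum_add_distrib]
      conv_lhs => rw [hxc p, Finset.smul_sum]
      refine Finset.sum_congr rfl fun q _ => ?_
      rw [← smul_add, smul_comm]
      simp [x]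
    have h2 : ∀ j : Fin N, t j * f = 0 := by
      intro j
      have h3 := congrArg (fun y => HahnSeries.coeff y (-(j : ℤ))) h1
      simp only [HahnSeries.coeff_add, HahnSeries.coeff_sum, HahnSeries.coeff_smul, hxπ, smul_zero,
        Finset.sum_const_zero, zero_add, hπlift] at h3
      exact h3.symm
    have h4 : f • lift t = 0 := by
      simp only [lift, Finset.smul_sum, smul_smul, Finset.mul_sum]
      refine Finset.sum_eq_zero fun i _ => ?_
      rw [Finset.sum_eq_zero fun j _ => by rw [← mul_assoc, mul_comm f, h2, zero_mul], zero_smul]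
    calc ∑ q, Q p q • x q = (f ^ 2) • x p - f • ∑ q, c p q • x q := by
          simp only [Q, Matrix.sub_apply, Matrix.smul_apply, sub_smul, Finset.sum_sub_distrib,
            Finset.smul_sum, P, Matrix.of_apply, smul_smul, smul_eq_mul, Matrix.scalar_apply]
          rw [Finset.sum_eq_single_of_mem p (Finset.mem_univ p)]
          · simp
          · intro q _ hq; simp [Ne.symm hq]
      _ = 0 := by
          rw [pow_two, mul_smul, h1, smul_add, h4, add_zero, sub_self]
  let Δ := Q.det
  have hΔK : φ Δ ≠ 0 := by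
    have hm : (φ : A →+* K).mapMatrix Q = Matrix.scalar (Fin d × Fin L.n) (φ f ^ 2) := by
      ext i j
      have h0 : φ (c i j) = 0 := hcI i j
      rcases eq_or_ne i j with rfl | hij <;>
        simp [Q, P, Matrix.scalar_apply, h0, *]
    rw [show φ Δ = ((φ : A →+* K).mapMatrix Q).det from RingHom.map_det (φ : A →+* K) Q, hm,
      Matrix.scalar_apply, Matrix.det_diagonal]
    exact Finset.prod_ne_zero_iff.mpr fun _ _ => pow_ne_zero _ hfK
  have hkill : ∀ p, Δ • x p = 0 := by
    intro p
    calc Δ • x p = ∑ q, (Q.adjugate * Q) p q • x q := by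
          rw [Matrix.adjugate_mul, Finset.sum_eq_single_of_mem p (Finset.mem_univ p)]
          · simp [Δ]
          · intro q _ hq; simp [Ne.symm hq]
      _ = ∑ r, Q.adjugate p r • ∑ q, Q r q • x q := by
          simp only [Matrix.mul_apply, Finset.sum_smul, Finset.smul_sum, smul_smul]
          exact Finset.sum_comm
      _ = 0 := Finset.sum_eq_zero fun r _ => by rw [hQ, smul_zero]
  -- conclusion
  refine ⟨Δ * f, by rw [map_mul]; exact mul_ne_zero hΔK hfK, ?_, fun w hw hw0 => ?_⟩
  · intro n
    induction n using Nat.strong_induction_on with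
    | _ n IH =>
      by_cases hn : n < N
      · refine ⟨Δ • lift (fun j => if (j : ℕ) = n then 1 else 0), L.W.smul_mem _ (hliftW _),
          fun i hi => ?_⟩
        by_cases hiN : i < -((N : ℤ) - 1)
        · rw [(hliftP _).smul Δ i hiN, if_neg (by omega)]
        · have h1 := hπlift (fun j => if (j : ℕ) = n then (1 : A) else 0) ⟨(-i).toNat, by omega⟩
          simp only [show -(((-i).toNat : ℕ) : ℤ) = i by omega] at h1
          rw [HahnSeries.coeff_smul, h1]
          by_cases hin : i = -(n : ℤ)
          · rw [if_pos hin, if_pos (by omega), smul_eq_mul, one_mul]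
          · rw [if_neg hin, if_neg (by omega), zero_mul, smul_zero]
      · choose e he hec using IH
        refine ⟨(Δ * f) • h n - ∑ j : Fin n, (h n).coeff (-(j : ℤ)) • e j j.2,
          sub_mem (L.W.smul_mem _ (hmem n (by omega)))
            (sum_mem fun j _ => L.W.smul_mem _ (he j j.2)), fun i hi => ?_⟩
        simp only [HahnSeries.coeff_sub, HahnSeries.coeff_sum, HahnSeries.coeff_smul, smul_eq_mul,
          hec _ _ i hi, mul_ite, mul_zero]
        rcases lt_trichotomy i (-(n : ℤ)) with h1 | rfl | h1
        · rw [hs.pole n (by omega) i h1, mul_zero, if_neg (by omega), Finset.sum_eq_zero, sub_zero]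
          intro j _
          rw [if_neg (by omega)]
        · rw [hs.lead n (by omega), mul_one, if_pos rfl, Finset.sum_eq_zero, sub_zero]
          intro j _
          rw [if_neg (by omega)]
        · rw [if_neg (by omega),
            Finset.sum_eq_single_of_mem (⟨(-i).toNat, by omega⟩ : Fin n) (Finset.mem_univ _)]
          · simp only [show -(((-i).toNat : ℕ) : ℤ) = i by omega, if_true]
            ring
          · intro j _ hj
            rw [if_neg fun e' => hj (Fin.ext (by simp only; omega))]
  · obtain ⟨y, hy, hyp, hyS⟩ := hdec w hw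
    have hyw : w = y := sub_eq_zero.mp (huniq _ hyS <| by
      refine PoleLE.sub (fun i hi => hw0 i (by omega)) hyp)
    obtain ⟨a, ha⟩ := hlow y hy hyp
    have h1 : f • y = (∑ p, a p • x p) + lift (fun j => ∑ p, a p * π (u p) j) := by
      have hl : lift (fun j => ∑ p, a p * π (u p) j) = ∑ p, a p • lift (π (u p)) := by
        simp only [lift, Finset.sum_mul, Finset.smul_sum, smul_smul, Finset.mul_sum]
        rw [Finset.sum_comm]
        refine Finset.sum_congr rfl fun i _ => ?_
        rw [Finset.sum_comm (f := fun j p => a p * π (u p) j * Mt.adjugate j i)]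
        simp only [Finset.sum_smul, mul_assoc]
      rw [hl, ← Finset.sum_add_distrib, ha, Finset.smul_sum]
      refine Finset.sum_congr rfl fun p _ => ?_
      rw [← smul_add, smul_comm]
      simp [x]
    have h2 : (fun j => ∑ p, a p * π (u p) j) = (0 : Fin N → A) := by
      funext j
      have h0 := hw0 (-(j : ℤ)) (by omega)
      rw [hyw, ha] at h0
      simpa [π, HahnSeries.coeff_sum] using h0
    rw [h2] at h1
    have h3 : lift (0 : Fin N → A) = 0 := by simp [lift]
    rw [h3, add_zero] at h1
    rw [mul_smul, hyw, h1, Finset.smul_sum]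
    exact Finset.sum_eq_zero fun p _ => by rw [smul_comm, hkill, smul_zero]

variable {L}

/-- Where `a` is invertible the polar parts are exactly `B[z⁻¹]`. -/
theorem LocallyGood.polar_map {a : A} (ha : L.LocallyGood a) {B : Type u} [CommRing B]
    [Algebra k B] (ψ : A →ₐ[k] B) (hu : IsUnit (ψ a)) : Polar (L.map ψ).W := by
  classical
  obtain ⟨v, hv⟩ := hu.exists_left_inv
  choose e heW he using ha.1
  let eB : ℕ → LaurentSeries B := fun n => v • lmap (ψ : A →+* B) (e n)
  have heB : ∀ n (i : ℤ), i ≤ 0 → (eB n).coeff i = if i = -(n : ℤ) then 1 else 0 := by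
    intro n i hi
    simp only [eB, HahnSeries.coeff_smul, lmap_coeff, he n i hi, smul_eq_mul]
    split_ifs <;> simp [hv]
  have heBW : ∀ n, eB n ∈ (L.map ψ).W := fun n =>
    Submodule.smul_mem _ _ (L.lmap_mem_map ψ (heW n))
  refine ⟨fun n => ⟨eB n, heBW n, heB n⟩, fun w hw hw0 => ?_⟩
  have hs : Staircase 0 eB := ⟨fun n _ => by rw [heB n _ (by omega), if_pos rfl],
    fun n _ i hi => by rw [heB n i (by omega), if_neg (by omega)]⟩
  have hsp : Submodule.span B (lmap (ψ : A →+* B) '' (L.W : Set (LaurentSeries A))) ≤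
      Submodule.span B (eB '' {n | 0 ≤ n}) := by
    refine Submodule.span_le.mpr ?_
    rintro _ ⟨x, hx, rfl⟩
    obtain ⟨D, hD⟩ := exists_poleLE x
    let z := a • x - ∑ j ∈ Finset.range (D + 1), x.coeff (-(j : ℤ)) • e j
    have hz : a • z = 0 := ha.2 z (sub_mem (L.W.smul_mem _ hx)
      (sum_mem fun j _ => L.W.smul_mem _ (heW j))) fun i hi => by
      simp only [z, HahnSeries.coeff_sub, HahnSeries.coeff_sum, HahnSeries.coeff_smul, smul_eq_mul,
        he _ i hi, mul_ite, mul_zero]
      by_cases hiD : i < -(D : ℤ)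
      · rw [hD i hiD, mul_zero, Finset.sum_eq_zero, sub_zero]
        intro j hj
        rw [Finset.mem_range] at hj
        rw [if_neg (by omega)]
      · rw [Finset.sum_eq_single_of_mem (-i).toNat (Finset.mem_range.mpr (by omega))]
        · rw [if_pos (by omega), show -(((-i).toNat : ℕ) : ℤ) = i by omega, mul_comm, sub_self]
        · intro j _ hj
          rw [if_neg (by omega)]
    have h1 := congrArg (fun y => (v * v) • lmap (ψ : A →+* B) y) hz
    simp only [z, smul_sub, map_sub, Finset.smul_sum, map_sum, lmap_smul, map_zero, smul_zero,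
      smul_smul] at h1
    rw [sub_eq_zero] at h1
    have e1 : lmap (ψ : A →+* B) x =
        ∑ j ∈ Finset.range (D + 1), ψ (x.coeff (-(j : ℤ))) • eB j := by
      have hv' : v * ψ a = 1 := hv
      calc lmap (ψ : A →+* B) x = (v * v * (ψ a * ψ a)) • lmap (ψ : A →+* B) x := by
            rw [show v * v * (ψ a * ψ a) = (v * ψ a) * (v * ψ a) by ring, hv', one_mul, one_smul]
        _ = _ := by
            rw [show ψ a * ψ a = ψ (a * a) from (map_mul ψ a a).symm]
            exact h1
        _ = _ := Finset.sum_congr rfl fun j _ => by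
            simp only [eB, smul_smul, map_mul]
            congr 1
            change v * v * (ψ a * ψ (x.coeff (-(j : ℤ)))) = _
            linear_combination (v * ψ (x.coeff (-(j : ℤ)))) * hv'
    rw [SetLike.mem_coe, e1]
    exact sum_mem fun j _ => Submodule.smul_mem _ _ (Submodule.subset_span ⟨j, Nat.zero_le j, rfl⟩)
  exact hs.eq_zero (hsp (L.map_le_span ψ hw)) fun i hi => hw0 i (by simp at hi; omega)

/-- The polar property is stable under base change. -/
theorem polar_map (h : Polar L.W) {B : Type u} [CommRing B] [Algebra k B] (ψ : A →ₐ[k] B) :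
    Polar (L.map ψ).W :=
  ((L.locallyGood_one_iff).mpr h).polar_map ψ (by rw [map_one]; exact isUnit_one)

/-- The polar property is local on the base. -/
theorem polar_of_span (h : Ideal.span {a | L.LocallyGood a} = ⊤) : Polar L.W := by
  refine ⟨fun n => ?_, fun w hw hw0 => ?_⟩
  · let J : Ideal A :=
      { carrier := {b | ∃ w ∈ L.W, ∀ i : ℤ, i ≤ 0 → w.coeff i = if i = -(n : ℤ) then b else 0}
        add_mem' := by
          rintro b b' ⟨w, hw, hb⟩ ⟨w', hw', hb'⟩
          refine ⟨w + w', add_mem hw hw', fun i hi => ?_⟩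
          rw [HahnSeries.coeff_add, hb i hi, hb' i hi]
          split_ifs <;> simp
        zero_mem' := ⟨0, zero_mem _, fun i _ => by simp⟩
        smul_mem' := by
          rintro t b ⟨w, hw, hb⟩
          refine ⟨t • w, L.W.smul_mem _ hw, fun i hi => ?_⟩
          rw [HahnSeries.coeff_smul, hb i hi]
          split_ifs <;> simp }
    have : (⊤ : Ideal A) ≤ J := h ▸ Ideal.span_le.mpr fun a ha => ha.1 n
    exact this (Submodule.mem_top (x := (1 : A)))
  · let J : Ideal A :=
      { carrier := {b | b • w = 0}
        add_mem' := fun {a b} ha hb => by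
          simp only [Set.mem_setOf_eq] at *
          rw [add_smul, ha, hb, add_zero]
        zero_mem' := zero_smul A w
        smul_mem' := fun t b hb => by
          simp only [Set.mem_setOf_eq] at *
          rw [smul_eq_mul, mul_smul, hb, smul_zero] }
    have : (⊤ : Ideal A) ≤ J := h ▸ Ideal.span_le.mpr fun a ha => ha.2 w hw hw0
    have h1 : (1 : A) • w = 0 := this (Submodule.mem_top (x := (1 : A)))
    rwa [one_smul] at h1

/-- The polar property descends along field extensions. -/
theorem polar_of_field {K K' : Type u} [Field K] [Algebra k K] [Field K'] [Algebra k K']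
    {L : Lattice E A} (φ : A →ₐ[k] K) (ψ : K →ₐ[k] K') (h : Polar (L.map (ψ.comp φ)).W) :
    Polar (L.map φ).W := by
  obtain ⟨a, ha, hg⟩ := L.exists_locallyGood (ψ.comp φ) h
  exact hg.polar_map φ (IsUnit.mk0 _ fun h0 => ha (by simp [h0]))

end Lattice

end Expansion

end Fermat.Agent.Jac
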