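import Mathlib

/-!
Elementary facts about Laurent series: pole bounds, coefficient maps, truncations.
-/

set_option autoImplicit false
set_option linter.unusedVariables false

noncomputable section

open HahnSeries

namespace Fermat.Agent.Jac

universe u v

variable {A : Type u} {B : Type v} [CommRing A] [CommRing B]

/-- Change of coefficients of Laurent series. -/
def lmap (φ : A →+* B) : LaurentSeries A →+* LaurentSeries B where
  toFun x := x.map φ
  map_zero' := by ext; simp
  map_one' := by ext i; simp [HahnSeries.coeff_one, apply_ite φ]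
  map_add' x y := by ext; simp
  map_mul' x y := HahnSeries.map_mul (φ : A →ₙ+* B)

@[simp] theorem lmap_coeff (φ : A →+* B) (x : LaurentSeries A) (i : ℤ) :
    (lmap φ x).coeff i = φ (x.coeff i) := rfl

theorem lmap_lmap {C : Type*} [CommRing C] (φ : A →+* B) (ψ : B →+* C) (x : LaurentSeries A) :
    lmap ψ (lmap φ x) = lmap (ψ.comp φ) x := by ext; simp

@[simp] theorem lmap_id (x : LaurentSeries A) : lmap (RingHom.id A) x = x := by ext; simp

@[simp] theorem lmap_C (φ : A →+* B) (a : A) : lmap φ (C a) = C (φ a) := by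
  ext i; rcases eq_or_ne i 0 with rfl | h <;> simp [*]

@[simp] theorem lmap_single (φ : A →+* B) (n : ℤ) (a : A) :
    lmap φ (single n a) = single n (φ a) := by
  ext i; rcases eq_or_ne i n with rfl | h <;> simp [*]

@[simp] theorem coeff_C_mul' (a : A) (x : LaurentSeries A) (i : ℤ) :
    (C a * x).coeff i = a * x.coeff i := by
  simp

theorem laurent_smul_eq (a : A) (x : LaurentSeries A) : a • x = C a * x := by
  ext i; simp

theorem lmap_smul (φ : A →+* B) (a : A) (x : LaurentSeries A) :
    lmap φ (a • x) = φ a • lmap φ x := by ext; simp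

/-- All poles have order at most `D` (coefficients below `-D` vanish). -/
def PoleLE (x : LaurentSeries A) (D : ℤ) : Prop := ∀ i : ℤ, i < -D → x.coeff i = 0

theorem PoleLE.mono {x : LaurentSeries A} {D D' : ℤ} (h : PoleLE x D) (hD : D ≤ D') :
    PoleLE x D' := fun i hi => h i (by omega)

theorem exists_poleLE (x : LaurentSeries A) : ∃ D : ℕ, PoleLE x D := by
  refine ⟨(-x.order).toNat, fun i hi => ?_⟩
  exact HahnSeries.coeff_eq_zero_of_lt_order (by omega)

theorem poleLE_zero (D : ℤ) : PoleLE (0 : LaurentSeries A) D := fun i hi => rfl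

theorem PoleLE.add {x y : LaurentSeries A} {D : ℤ} (hx : PoleLE x D) (hy : PoleLE y D) :
    PoleLE (x + y) D := fun i hi => by simp [hx i hi, hy i hi]

theorem PoleLE.sub {x y : LaurentSeries A} {D : ℤ} (hx : PoleLE x D) (hy : PoleLE y D) :
    PoleLE (x - y) D := fun i hi => by simp [hx i hi, hy i hi]

theorem PoleLE.smul {x : LaurentSeries A} {D : ℤ} (hx : PoleLE x D) (a : A) :
    PoleLE (a • x) D := fun i hi => by simp [hx i hi]

theorem PoleLE.sum {ι : Type*} (s : Finset ι) (f : ι → LaurentSeries A) {D : ℤ}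
    (h : ∀ i ∈ s, PoleLE (f i) D) : PoleLE (∑ i ∈ s, f i) D :=
  Finset.sum_induction f (fun x => PoleLE x D) (fun _ _ => PoleLE.add) (poleLE_zero D) h

theorem PoleLE.lmap {x : LaurentSeries A} {D : ℤ} (hx : PoleLE x D) (φ : A →+* B) :
    PoleLE (lmap φ x) D := fun i hi => by simp [hx i hi]

theorem poleLE_ofPowerSeries (p : PowerSeries A) : PoleLE (ofPowerSeries ℤ A p) 0 := by
  intro i hi
  rw [ofPowerSeries_apply]
  refine HahnSeries.embDomain_of_notMem_range ?_
  rintro ⟨n, hn⟩
  change (n : ℤ) = i at hn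
  omega

theorem ofPowerSeries_map (φ : A →+* B) (p : PowerSeries A) :
    ofPowerSeries ℤ B (PowerSeries.map φ p) = lmap φ (ofPowerSeries ℤ A p) := by
  ext i
  rw [lmap_coeff]
  rcases lt_or_ge i 0 with h | h
  · rw [poleLE_ofPowerSeries _ i (by omega), poleLE_ofPowerSeries _ i (by omega), map_zero]
  · lift i to ℕ using h
    rw [HahnSeries.ofPowerSeries_apply_coeff, HahnSeries.ofPowerSeries_apply_coeff,
      PowerSeries.coeff_map]

theorem coeff_mul_finite {x y : LaurentSeries A} {a b : ℤ} (hx : PoleLE x a) (hy : PoleLE y b)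
    (i : ℤ) : (x * y).coeff i = ∑ j ∈ Finset.Icc (-a) (i + b), x.coeff j * y.coeff (i - j) := by
  rw [HahnSeries.coeff_mul]
  refine (Finset.sum_bij_ne_zero (fun j _ _ => (j, i - j)) ?_ ?_ ?_ ?_).symm
  · intro j _ h
    simp only [Finset.mem_antidiagonal, HahnSeries.mem_support]
    exact ⟨left_ne_zero_of_mul h, right_ne_zero_of_mul h, by omega⟩
  · intro j _ _ j' _ _ h
    exact (Prod.ext_iff.mp h).1
  · rintro ⟨p, q⟩ hpq hne
    simp only [Finset.mem_antidiagonal, HahnSeries.mem_support] at hpq
    refine ⟨p, Finset.mem_Icc.mpr ⟨?_, ?_⟩, ?_, ?_⟩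
    · by_contra hc
      exact hpq.1 (hx p (by omega))
    · by_contra hc
      exact hpq.2.1 (hy q (by omega))
    · rwa [show i - p = q by omega]
    · rw [show i - p = q by omega]
  · intro j _ _; rfl

theorem PoleLE.mul {x y : LaurentSeries A} {a b : ℤ} (hx : PoleLE x a) (hy : PoleLE y b) :
    PoleLE (x * y) (a + b) := fun i hi => by
  rw [coeff_mul_finite hx hy, Finset.Icc_eq_empty (by omega)]
  rfl

theorem coeff_mul_bottom {x y : LaurentSeries A} {a b : ℤ} (hx : PoleLE x a) (hy : PoleLE y b) :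
    (x * y).coeff (-(a + b)) = x.coeff (-a) * y.coeff (-b) := by
  rw [coeff_mul_finite hx hy, show (-(a + b) + b) = -a by omega, Finset.Icc_self,
    Finset.sum_singleton, show -(a + b) - -a = -b by omega]

/-- Two series with the same coefficients in all degrees are equal; split at zero. -/
theorem laurent_ext {x y : LaurentSeries A} (hneg : ∀ i : ℤ, i ≤ 0 → x.coeff i = y.coeff i)
    (hpos : ∀ i : ℕ, x.coeff ((i : ℤ) + 1) = y.coeff ((i : ℤ) + 1)) : x = y := by
  ext i
  rcases le_or_gt i 0 with h | h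
  · exact hneg i h
  · obtain ⟨n, rfl⟩ : ∃ n : ℕ, i = (n : ℤ) + 1 := ⟨(i - 1).toNat, by omega⟩
    exact hpos n

end Fermat.Agent.Jac
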