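import Fermat.Agent.Jac.BigCell.Invertible
import Fermat.Agent.Jac.BigCell.Ring

/-!
The big cell is smooth: cells lift along square-zero extensions.
-/

set_option autoImplicit false
set_option linter.unusedVariables false

noncomputable section

open HahnSeries
open scoped TensorProduct

attribute [local instance 2000] HahnSeries.instAlgebra

namespace Fermat.Agent.Jac

universe u

variable {k : Type u} [Field k] {R : Type u} [CommRing R] [Algebra k R]

namespace Expansion

variable {E : Expansion k R} [∀ (K : Type u) [Field K] [Algebra k K], IsDedekindDomain (E.CoordRing K)]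

theorem exists_lift_cell {A B : Type u} [CommRing A] [Algebra k A] [CommRing B] [Algebra k B]
    (φ : A →ₐ[k] B) (hφ : Function.Surjective φ)
    (hI : ∀ a b, φ a = 0 → φ b = 0 → a * b = 0) (c : Cell E B) :
    ∃ c' : Cell E A, c'.map φ = c := by
  classical
  obtain ⟨n, q, w, hw, hq, hsum⟩ := c.exists_invertible
  choose g hg using fun i j => hq i (w j) (hw j)
  let F := E.coordMap φ
  let lf := lmap (φ : A →+* B)
  have hFmul : ∀ x y, F x = 0 → F y = 0 → x * y = 0 := by
    intro x y hx hy
    apply E.expA_injective A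
    rw [map_mul, map_zero]
    have hcoef : ∀ z, F z = 0 → ∀ i, φ ((E.expA A z).coeff i) = 0 := fun z hz i => by
      simpa [F, hz] using congrArg (fun f => HahnSeries.coeff f i) (E.lmap_expA φ z)
    ext i
    rw [HahnSeries.coeff_mul]
    exact Finset.sum_eq_zero fun p hp => hI _ _ (hcoef x hx _) (hcoef y hy _)
  -- the idempotent
  let e₀ : Matrix (Fin n) (Fin n) (E.CoordRing B) := Matrix.of g
  have hge : ∀ i j, ∑ l, g i l * g l j = g i j := fun i j => E.expA_injective B <| by
    simp only [map_sum, map_mul, hg]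
    calc ∑ l, E.expA B (q i) * w l * (E.expA B (q l) * w j)
        = (∑ l, E.expA B (q l) * w l) * (E.expA B (q i) * w j) := by
          rw [Finset.sum_mul]; exact Finset.sum_congr rfl fun l _ => by ring
      _ = _ := by rw [hsum, one_mul]
  have hpre : e₀ ∈ (F.mapMatrix (m := Fin n)).range := by
    choose g' hg' using fun i j => E.coordMap_surjective φ hφ (g i j)
    exact ⟨Matrix.of g', by ext i j; simp [e₀, F, hg']⟩
  have hnil : ∀ M : Matrix (Fin n) (Fin n) (E.CoordRing A),
      M ∈ RingHom.ker (F.mapMatrix (m := Fin n)) → IsNilpotent M := by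
    intro M hM
    refine ⟨2, ?_⟩
    have h0 : ∀ i j, F (M i j) = 0 := fun i j => congrFun (congrFun
      (show F.mapMatrix (m := Fin n) M = 0 from hM) i) j
    rw [pow_two]
    ext i j
    rw [Matrix.mul_apply]
    exact Finset.sum_eq_zero fun l _ => hFmul _ _ (h0 i l) (h0 l j)
  obtain ⟨e, he, hmap⟩ := exists_isIdempotentElem_eq_of_ker_isNilpotent (F.mapMatrix (m := Fin n))
    hnil e₀ hpre (by ext i j; exact hge i j)
  have hFe : ∀ i j, F (e i j) = g i j := fun i j => congrFun (congrFun hmap i) j
  -- lifts of series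
  choose σ hσ using hφ
  let slift : LaurentSeries B → LaurentSeries A := fun f =>
    HahnSeries.ofSuppBddBelow (fun i => if f.coeff i = 0 then 0 else σ (f.coeff i))
      (let ⟨D, hD⟩ := exists_poleLE f
       ⟨-(D : ℤ), fun i hi => not_lt.mp fun h => (Function.mem_support.mp hi) (by simp [hD i h])⟩)
  have hslift : ∀ f, lf (slift f) = f := fun f => by
    ext i
    change φ (if f.coeff i = 0 then 0 else σ (f.coeff i)) = f.coeff i
    split_ifs with h
    · rw [map_zero, h]
    · exact hσ _
  let ι : (Fin n → E.CoordRing A) → LaurentSeries A := fun r =>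
    ∑ i, E.expA A (r i) * slift (w i)
  let W₀ : Submodule A (LaurentSeries A) :=
    { carrier := {x | ∃ r, x = ι (e.mulVec r)}
      zero_mem' := ⟨0, by simp [ι]⟩
      add_mem' := by
        rintro x y ⟨r, rfl⟩ ⟨s, rfl⟩
        exact ⟨r + s, by simp [ι, Matrix.mulVec_add, add_mul, Finset.sum_add_distrib]⟩
      smul_mem' := by
        rintro a x ⟨r, rfl⟩
        exact ⟨a • r, by simp [ι, Matrix.mulVec_smul, Finset.smul_sum]⟩ }
  have hW₀mul : ∀ (r : E.CoordRing A) x, x ∈ W₀ → E.expA A r * x ∈ W₀ := by
    rintro r x ⟨s, rfl⟩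
    exact ⟨r • s, by simp [ι, Matrix.mulVec_smul, Finset.mul_sum, mul_assoc]⟩
  have hred : ∀ r : Fin n → E.CoordRing A,
      lf (ι (e.mulVec r)) = ∑ j, E.expA B (F (r j)) * w j := by
    intro r
    simp only [ι, map_sum, map_mul, lf, E.lmap_expA]
    calc ∑ i, E.expA B (F ((e.mulVec r) i)) * lf (slift (w i))
        = ∑ i, ∑ j, E.expA B (q i) * w i * (E.expA B (F (r j)) * w j) := by
          refine Finset.sum_congr rfl fun i _ => ?_
          rw [hslift, Matrix.mulVec, dotProduct, map_sum, map_sum, Finset.sum_mul]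
          refine Finset.sum_congr rfl fun j _ => ?_
          rw [map_mul, map_mul, hFe, hg]
          ring
      _ = (∑ i, E.expA B (q i) * w i) * ∑ j, E.expA B (F (r j)) * w j := by
          rw [Finset.sum_mul]; exact Finset.sum_congr rfl fun i _ => (Finset.mul_sum ..).symm
      _ = _ := by rw [hsum, one_mul]
  have hmemW : ∀ x ∈ W₀, lf x ∈ c.W := by
    rintro x ⟨r, rfl⟩
    rw [hred]
    exact sum_mem fun j _ => c.expA_mul_mem _ (hw j)
  have hsurj : ∀ y ∈ c.W, ∃ x ∈ W₀, lf x = y := by
    intro y hy
    choose s hs using fun i => hq i y hy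
    choose r hr using fun i => E.coordMap_surjective φ (fun b => ⟨σ b, hσ b⟩) (s i)
    refine ⟨_, ⟨r, rfl⟩, ?_⟩
    rw [hred]
    calc ∑ j, E.expA B (F (r j)) * w j = (∑ j, E.expA B (q j) * w j) * y := by
          rw [Finset.sum_mul]
          exact Finset.sum_congr rfl fun j _ => by simp only [F, hr, hs]; ring
      _ = y := by rw [hsum, one_mul]
  -- elements of the kernel are combinations with coefficients in the kernel of `φ`
  have hker : ∀ x ∈ W₀, lf x = 0 → ∃ (m : ℕ) (a : Fin m → A) (v : Fin m → LaurentSeries A),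
      (∀ l, φ (a l) = 0) ∧ (∀ l, v l ∈ W₀) ∧ x = ∑ l, a l • v l := by
    let P : LaurentSeries A → Prop := fun x => ∃ (m : ℕ) (a : Fin m → A)
      (v : Fin m → LaurentSeries A), (∀ l, φ (a l) = 0) ∧ (∀ l, v l ∈ W₀) ∧ x = ∑ l, a l • v l
    have hP0 : P 0 := ⟨0, Fin.elim0, Fin.elim0, fun l => l.elim0, fun l => l.elim0, by simp⟩
    have hPadd : ∀ x y, P x → P y → P (x + y) := by
      rintro x y ⟨m, a, v, ha, hv, rfl⟩ ⟨m', a', v', ha', hv', rfl⟩
      refine ⟨m + m', Fin.append a a', Fin.append v v', fun l => ?_, fun l => ?_, ?_⟩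
      · induction l using Fin.addCases <;> simp [ha, ha']
      · induction l using Fin.addCases <;> simp [hv, hv']
      · rw [Fin.sum_univ_add]; simp
    -- kernel elements of `F`
    have hK : ∀ z : E.CoordRing A, F z = 0 → ∃ (m : ℕ) (a : Fin m → A)
        (u : Fin m → E.CoordRing A), (∀ l, φ (a l) = 0) ∧ z = ∑ l, a l • u l := by
      intro z hz
      let b := Module.Basis.ofVectorSpace k R
      obtain ⟨y, rfl⟩ := (E.toCoord A).surjective z
      obtain ⟨f, rfl⟩ := (TensorProduct.equivFinsuppOfBasisRight (M := A) b).symm.surjective y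
      have hf : ∀ l, φ (f l) = 0 := by
        intro l
        have h1 : Algebra.TensorProduct.map φ (AlgHom.id k R)
            ((TensorProduct.equivFinsuppOfBasisRight (M := A) b).symm f) = 0 := hz
        have h2 : Algebra.TensorProduct.map φ (AlgHom.id k R)
            ((TensorProduct.equivFinsuppOfBasisRight (M := A) b).symm f) =
            (TensorProduct.equivFinsuppOfBasisRight (M := B) b).symm
              (f.mapRange φ (map_zero φ)) := by
          simp only [TensorProduct.equivFinsuppOfBasisRight_symm_apply, Finsupp.sum, map_sum,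
            Algebra.TensorProduct.map_tmul, AlgHom.id_apply]
          refine (Finset.sum_subset (Finsupp.support_mapRange (f := φ) (hf := map_zero φ) (g := f)) fun l hl hl' => ?_).symm.trans ?_
          · simp only [Finsupp.mem_support_iff, Finsupp.mapRange_apply, not_not] at hl'
            rw [hl', TensorProduct.zero_tmul]
          · exact Finset.sum_congr rfl fun l _ => by simp
        rw [h2, LinearEquiv.map_eq_zero_iff] at h1
        simpa using congrArg (fun g : _ →₀ B => g l) h1
      refine ⟨f.support.card, fun l => f (f.support.equivFin.symm l),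
        fun l => E.coordInc A (b (f.support.equivFin.symm l)), fun l => hf _, ?_⟩
      rw [TensorProduct.equivFinsuppOfBasisRight_symm_apply, Finsupp.sum, map_sum,
        ← Equiv.sum_comp f.support.equivFin]
      simp only [Equiv.symm_apply_apply]
      rw [← Finset.sum_coe_sort f.support]
      refine Finset.sum_congr rfl fun l _ => ?_
      change (f l ⊗ₜ[k] b l : A ⊗[k] R) = f l • ((1 : A) ⊗ₜ[k] b (l : _))
      rw [TensorProduct.smul_tmul', smul_eq_mul, mul_one]
    rintro x ⟨r, rfl⟩ hx
    have hzero : ∀ i, F ((e.mulVec r) i) = 0 := by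
      intro i
      apply E.expA_injective B
      rw [map_zero, Matrix.mulVec, dotProduct, map_sum, map_sum]
      calc ∑ j, E.expA B (F (e i j * r j))
          = E.expA B (q i) * ∑ j, E.expA B (F (r j)) * w j := by
            rw [Finset.mul_sum]
            exact Finset.sum_congr rfl fun j _ => by rw [map_mul, map_mul, hFe, hg]; ring
        _ = 0 := by rw [← hred, hx, mul_zero]
    show P _
    have hfix : ι (e.mulVec r) = ι (e.mulVec (e.mulVec r)) := by
      rw [Matrix.mulVec_mulVec, he.eq]
    rw [hfix]
    have hsingle : e.mulVec (e.mulVec r) =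
        ∑ i, e.mulVec (Pi.single i ((e.mulVec r) i)) := by
      rw [← Matrix.mulVec_sum, Finset.univ_sum_single]
    have hι : ∀ {T : Type} (s : Finset T) (f : T → (Fin n → E.CoordRing A)),
        ι (∑ i ∈ s, f i) = ∑ i ∈ s, ι (f i) := by
      intro T s f
      simp only [ι, Finset.sum_apply, map_sum, Finset.sum_mul]
      exact Finset.sum_comm
    rw [hsingle, hι]
    refine Finset.sum_induction _ P hPadd hP0 fun i _ => ?_
    obtain ⟨m, a, u, ha, hu⟩ := hK _ (hzero i)
    refine ⟨m, a, fun l => ι (e.mulVec (Pi.single i (u l))), ha, fun l => ⟨_, rfl⟩, ?_⟩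
    have : (Pi.single i ((e.mulVec r) i) : Fin n → E.CoordRing A) =
        ∑ l, a l • Pi.single i (u l) := by
      rw [hu]
      ext j
      rcases eq_or_ne j i with rfl | hj <;> simp [*]
    rw [this, Matrix.mulVec_sum, hι]
    simp [ι, Matrix.mulVec_smul, Finset.smul_sum]
  -- lifted basis
  choose y hy hy' using fun m => hsurj (c.basis m) (c.basis_mem m)
  have hcoef : ∀ m (i : ℤ), φ ((y m).coeff i) = (c.basis m).coeff i := fun m i =>
    congrArg (fun f => HahnSeries.coeff f i) (hy' m)
  -- correct the polar parts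
  choose D hD using fun m => exists_poleLE (y m)
  let δ : ℕ → ℕ → A := fun m j => (y m).coeff (-(j : ℤ)) - if j = m then 1 else 0
  have hδ : ∀ m j, φ (δ m j) = 0 := fun m j => by
    rw [map_sub, hcoef, c.basis_coeff m _ (by omega)]
    simp only [neg_inj, Nat.cast_inj]
    split_ifs <;> simp
  let z : ℕ → LaurentSeries A := fun m => y m - ∑ j ∈ Finset.range (D m + m + 1), δ m j • y j
  have hzmem : ∀ m, z m ∈ W₀ := fun m =>
    sub_mem (hy m) (sum_mem fun j _ => W₀.smul_mem _ (hy j))
  have hzlf : ∀ m, lf (z m) = c.basis m := fun m => by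
    simp only [z, map_sub, map_sum, lf, lmap_smul]
    rw [Finset.sum_eq_zero fun j _ => by
      rw [show (φ : A →+* B) (δ m j) = 0 from hδ m j, zero_smul], sub_zero]
    exact hy' m
  have hzpolar : ∀ m (i : ℤ), i ≤ 0 → (z m).coeff i = if i = -(m : ℤ) then 1 else 0 := by
    intro m i hi
    have hmul : ∀ j, δ m j * (y j).coeff i = δ m j * if i = -(j : ℤ) then 1 else 0 := by
      intro j
      have : φ ((y j).coeff i - if i = -(j : ℤ) then 1 else 0) = 0 := by
        rw [map_sub, hcoef, c.basis_coeff j i hi]; split_ifs <;> simp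
      have h0 := hI _ _ (hδ m j) this
      rwa [mul_sub, sub_eq_zero] at h0
    simp only [z, HahnSeries.coeff_sub, HahnSeries.coeff_sum, HahnSeries.coeff_smul, smul_eq_mul,
      hmul, mul_ite, mul_one, mul_zero]
    by_cases h : i < -((D m + m : ℕ) : ℤ)
    · rw [hD m i (by push_cast at h ⊢; omega), Finset.sum_eq_zero, if_neg (by omega), sub_zero]
      intro j hj
      rw [if_neg]
      have := Finset.mem_range.mp hj
      omega
    · rw [Finset.sum_eq_single_of_mem ((-i).toNat) (Finset.mem_range.mpr (by omega)),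
        if_pos (by omega)]
      · have hi' : -(((-i).toNat : ℕ) : ℤ) = i := by omega
        have hif : ((-i).toNat = m) ↔ i = -(m : ℤ) := by omega
        simp only [δ, hi', hif]
        ring
      · intro j _ hj
        rw [if_neg (by omega)]
  have hpolar0 : ∀ x ∈ W₀, (∀ i : ℤ, i ≤ 0 → x.coeff i = 0) → x = 0 := by
    intro x hx h
    have hlx : lf x = 0 := c.eq_zero_of_polar _ (hmemW x hx) fun i hi => by
      simp [lf, h i hi]
    obtain ⟨m, a, v, ha, hv, rfl⟩ := hker x hx hlx
    choose Dv hDv using fun l => exists_poleLE (v l)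
    -- each `v l` agrees with its polar expansion up to the kernel
    have hv' : ∀ l, a l • v l =
        ∑ j ∈ Finset.range (Dv l + 1), (a l * (v l).coeff (-(j : ℤ))) • z j := by
      intro l
      have h1 := c.eq_sum_basis (hmemW _ (hv l)) (D := Dv l) ((hDv l).lmap _)
      have h2 : lf (v l - ∑ j ∈ Finset.range (Dv l + 1), (v l).coeff (-(j : ℤ)) • z j) = 0 := by
        simp only [map_sub, map_sum, lf, lmap_smul]
        rw [sub_eq_zero]
        refine h1.trans (Finset.sum_congr rfl fun j _ => ?_)
        rw [lmap_coeff]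
        exact congrArg _ (hzlf j).symm
      have h3 : a l • (v l - ∑ j ∈ Finset.range (Dv l + 1), (v l).coeff (-(j : ℤ)) • z j) = 0 := by
        ext i
        rw [HahnSeries.coeff_smul, smul_eq_mul, HahnSeries.coeff_zero]
        exact hI _ _ (ha l) (congrArg (fun f => HahnSeries.coeff f i) h2)
      rw [smul_sub, sub_eq_zero, Finset.smul_sum] at h3
      simpa [smul_smul] using h3
    have hcomb : ∑ l, a l • v l =
        ∑ j ∈ Finset.range (Finset.univ.sup Dv + 1), (∑ l ∈ Finset.univ.filter fun l => j ≤ Dv l,
          a l * (v l).coeff (-(j : ℤ))) • z j := by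
      simp only [hv', Finset.sum_smul]
      rw [Finset.sum_comm' (t' := Finset.range (Finset.univ.sup Dv + 1))
        (s' := fun j => Finset.univ.filter fun l => j ≤ Dv l)]
      intro l j
      simp only [Finset.mem_univ, Finset.mem_range, Finset.mem_filter, true_and]
      exact ⟨fun h => ⟨by omega, by
          have := Finset.le_sup (f := Dv) (Finset.mem_univ l); omega⟩, fun h => by omega⟩
    rw [hcomb] at h ⊢
    refine Finset.sum_eq_zero fun j hj => ?_
    have hj' := h (-(j : ℤ)) (by omega)
    simp only [HahnSeries.coeff_sum, HahnSeries.coeff_smul, smul_eq_mul,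
      hzpolar _ _ (show -(j : ℤ) ≤ 0 by omega), neg_inj, Nat.cast_inj, mul_ite, mul_one, mul_zero,
      Finset.sum_ite_eq, hj, if_true] at hj'
    rw [hj', zero_smul]
  -- normalise so that `1` is in the module
  let u := z 0
  have hu : ∃ p : PowerSeries A, ofPowerSeries ℤ A p = u ∧ IsUnit p := by
    refine ⟨PowerSeries.mk fun i => u.coeff (i : ℤ), ?_, ?_⟩
    · ext i
      rcases lt_or_ge i 0 with hi | hi
      · rw [poleLE_ofPowerSeries _ i (by omega), hzpolar 0 i hi.le, if_neg (by omega)]
      · obtain ⟨j, rfl⟩ : ∃ j : ℕ, i = j := ⟨i.toNat, by omega⟩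
        rw [ofPowerSeries_apply_coeff, PowerSeries.coeff_mk]
    · rw [PowerSeries.isUnit_iff_constantCoeff, ← PowerSeries.coeff_zero_eq_constantCoeff_apply,
        PowerSeries.coeff_mk, Nat.cast_zero, hzpolar 0 0 le_rfl]
      simp
  obtain ⟨p, hpu, hp⟩ := hu
  let v : LaurentSeries A := ofPowerSeries ℤ A ↑hp.unit⁻¹
  have huv : u * v = 1 := by
    rw [← hpu, ← map_mul, IsUnit.mul_val_inv, map_one]
  have hvu : v * u = 1 := by rw [mul_comm, huv]
  have hlfu : lf u = 1 := (hzlf 0).trans c.basis_zero
  have hlfv : lf v = 1 := by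
    have := congrArg lf huv
    rwa [map_mul, hlfu, one_mul, map_one] at this
  have hvcoef : ∀ (f : LaurentSeries A) (g : LaurentSeries A), lf g = 1 → PoleLE g 0 →
      (∀ i : ℤ, i ≤ 0 → f.coeff i = 0) → ∀ i : ℤ, i ≤ 0 → (g * f).coeff i = 0 := by
    intro f g _ hg hf i hi
    rw [coeff_mul_finite hg (b := -1) (fun j hj => hf j (by omega)) i,
      Finset.Icc_eq_empty (by omega)]
    rfl
  let c' : Cell E A :=
    { W := W₀.map (LinearMap.mulLeft A v)
      one_mem := ⟨u, hzmem 0, hvu⟩
      mul_mem := by
        rintro r _ ⟨x, hx, rfl⟩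
        refine ⟨E.emb A r * x, ?_, mul_left_comm _ _ _⟩
        rw [← E.expA_coordInc]
        exact hW₀mul _ _ hx
      exists_basis := by
        intro m
        let t := v * z m
        obtain ⟨Dt, hDt⟩ := exists_poleLE t
        have hε : ∀ j : ℕ, φ (t.coeff (-(j : ℤ)) - if j = m then 1 else 0) = 0 := fun j => by
          have h1 : lf t = c.basis m := by rw [map_mul, hlfv, one_mul, hzlf]
          have h2 : φ (t.coeff (-(j : ℤ))) = (c.basis m).coeff (-(j : ℤ)) :=
            congrArg (fun f => HahnSeries.coeff f (-(j : ℤ))) h1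
          rw [map_sub, h2, c.basis_coeff m _ (by omega)]
          simp only [neg_inj, Nat.cast_inj]
          split_ifs <;> simp
        refine ⟨t - ∑ j ∈ Finset.range (Dt + m + 1),
          (t.coeff (-(j : ℤ)) - if j = m then 1 else 0) • (v * z j),
          sub_mem ⟨z m, hzmem m, rfl⟩ (sum_mem fun j _ => Submodule.smul_mem _ _
            ⟨z j, hzmem j, rfl⟩), fun i hi => ?_⟩
        have hmul : ∀ j : ℕ, (t.coeff (-(j : ℤ)) - if j = m then 1 else 0) * (v * z j).coeff i =
            (t.coeff (-(j : ℤ)) - if j = m then 1 else 0) * if i = -(j : ℤ) then 1 else 0 := by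
          intro j
          have h1 : lf (v * z j) = c.basis j := by rw [map_mul, hlfv, one_mul, hzlf]
          have : φ ((v * z j).coeff i - if i = -(j : ℤ) then 1 else 0) = 0 := by
            rw [map_sub, show φ ((v * z j).coeff i) = (c.basis j).coeff i from
              congrArg (fun f => HahnSeries.coeff f i) h1, c.basis_coeff j i hi]
            split_ifs <;> simp
          have h0 := hI _ _ (hε j) this
          rwa [mul_sub, sub_eq_zero] at h0
        simp only [HahnSeries.coeff_sub, HahnSeries.coeff_sum, HahnSeries.coeff_smul, smul_eq_mul,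
          hmul, mul_ite, mul_one, mul_zero]
        by_cases h : i < -((Dt + m : ℕ) : ℤ)
        · rw [hDt i (by push_cast at h ⊢; omega), Finset.sum_eq_zero, if_neg (by omega), sub_zero]
          intro j hj
          rw [if_neg]
          have := Finset.mem_range.mp hj
          omega
        · rw [Finset.sum_eq_single_of_mem ((-i).toNat) (Finset.mem_range.mpr (by omega)),
            if_pos (by omega)]
          · have hi' : -(((-i).toNat : ℕ) : ℤ) = i := by omega
            have hif : ((-i).toNat = m) ↔ i = -(m : ℤ) := by omega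
            simp only [hi', hif]
            ring
          · intro j _ hj
            rw [if_neg (by omega)]
      eq_zero_of_polar := by
        rintro _ ⟨x, hx, rfl⟩ h
        have hx0 : x = 0 := hpolar0 x hx fun i hi => by
          have hxe : x = u * (v * x) := by rw [← mul_assoc, huv, one_mul]
          rw [hxe]
          exact hvcoef (v * x) u hlfu (hpu ▸ poleLE_ofPowerSeries p) h i hi
        simp [hx0] }
  refine ⟨c', Cell.ext_of_coord ?_⟩
  funext m i
  rw [Cell.map_coord]
  by_cases hi : i = 0
  · subst hi; simp [Cell.coord]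
  have hb : lf (c'.basis m) = c.basis m := by
    obtain ⟨x, hx, hxb⟩ := c'.basis_mem m
    refine c.eq_of_polar ?_ (c.basis_mem m) fun j hj => ?_
    · rw [← hxb]
      change lf (v * x) ∈ c.W
      rw [map_mul, hlfv, one_mul]
      exact hmemW x hx
    · rw [lmap_coeff, c'.basis_coeff m j hj, c.basis_coeff m j hj]
      split_ifs <;> simp
  simp only [Cell.coord, if_neg hi, ← hb]
  rfl

instance cellRing_formallySmooth : Algebra.FormallySmooth k (CellRing E) := by
  refine Algebra.FormallySmooth.of_comp_surjective fun B _ _ I hI f => ?_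
  have hI' : ∀ a b, Ideal.Quotient.mkₐ k I a = 0 → Ideal.Quotient.mkₐ k I b = 0 → a * b = 0 := by
    intro a b ha hb
    have : a * b ∈ I ^ 2 := by
      rw [pow_two]
      exact Ideal.mul_mem_mul (Ideal.Quotient.eq_zero_iff_mem.mp ha)
        (Ideal.Quotient.eq_zero_iff_mem.mp hb)
    rw [hI] at this
    exact this
  obtain ⟨c', hc'⟩ := exists_lift_cell (Ideal.Quotient.mkₐ k I)
    (Ideal.Quotient.mkₐ_surjective k I) hI' (cellEquiv f)
  refine ⟨cellEquiv.symm c', cellEquiv.injective ?_⟩
  rw [cellEquiv_natural, Equiv.apply_symm_apply, hc']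

instance cellRing_smooth : Algebra.Smooth k (CellRing E) :=
  ⟨inferInstance, (Algebra.FinitePresentation.of_finiteType).mp inferInstance⟩

end Expansion

end Fermat.Agent.Jac
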