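import Fermat.Agent.Jac.BigCell.Cell
import Fermat.Agent.Jac.BigCell.CoeffInjective

/-!
The coordinate ring with coefficients in `A` and its expansion.
-/

set_option autoImplicit false
set_option linter.unusedVariables false

noncomputable section

open HahnSeries
open scoped TensorProduct

attribute [local instance 2000] HahnSeries.instAlgebra

namespace Fermat.Agent.Jac

universe u

variable {k : Type u} [Field k] {R : Type u} [CommRing R] [Algebra k R]

namespace Expansion

variable (E : Expansion k R) (A : Type u) [CommRing A] [Algebra k A]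

/-- The coordinate ring with coefficients in `A`. -/
def CoordRing (E : Expansion k R) (A : Type u) [CommRing A] [Algebra k A] : Type u := A ⊗[k] R

instance : CommRing (E.CoordRing A) := inferInstanceAs (CommRing (A ⊗[k] R))

instance : Algebra A (E.CoordRing A) := inferInstanceAs (Algebra A (A ⊗[k] R))

/-- Reading `A ⊗ R` as the coordinate ring. -/
def toCoord : A ⊗[k] R ≃ₐ[A] E.CoordRing A := AlgEquiv.refl

/-- A function on the curve, with constant coefficients. -/
def coordInc : R →+* E.CoordRing A :=
  (E.toCoord A : A ⊗[k] R →+* E.CoordRing A).comp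
    (Algebra.TensorProduct.includeRight (R := k) (A := A) (B := R)).toRingHom

theorem _root_.Fermat.Agent.Jac.coordRing_induction {motive : E.CoordRing A → Prop} (x : E.CoordRing A)
    (h : ∀ (a : A) (r : R), motive (a • E.coordInc A r)) (hadd : ∀ x y, motive x → motive y → motive (x + y)) :
    motive x := by
  suffices H : ∀ y : A ⊗[k] R, motive (E.toCoord A y) by
    simpa using H ((E.toCoord A).symm x)
  intro y
  induction y using TensorProduct.induction_on with
  | zero => simpa using h 0 1
  | tmul a r =>
    have : E.toCoord A (a ⊗ₜ r) = a • E.coordInc A r := by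
      change (a ⊗ₜ[k] r : A ⊗[k] R) = a • ((1 : A) ⊗ₜ[k] r)
      rw [TensorProduct.smul_tmul', smul_eq_mul, mul_one]
    exact this ▸ h a r
  | add x y hx hy => rw [map_add]; exact hadd _ _ hx hy

/-- `emb` as an algebra map. -/
def embAlgHom : R →ₐ[k] LaurentSeries A :=
  { E.emb A with
    commutes' := fun a => by
      change E.emb A (algebraMap k R a) = _
      rw [E.emb_const]
      rfl }

/-- The expansion with coefficients in `A`. -/
def expA : E.CoordRing A →ₐ[A] LaurentSeries A :=
  (Algebra.TensorProduct.lift (Algebra.ofId A (LaurentSeries A)) (E.embAlgHom A)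
    fun _ _ => Commute.all _ _).comp (E.toCoord A).symm.toAlgHom

theorem expA_coordInc (r : R) : E.expA A (E.coordInc A r) = E.emb A r := by
  change Algebra.TensorProduct.lift (Algebra.ofId A (LaurentSeries A)) (E.embAlgHom A)
    (fun _ _ => Commute.all _ _) ((1 : A) ⊗ₜ[k] r) = _
  simp [embAlgHom]

variable {A}

/-- Change of coefficients. -/
def coordMap {B : Type u} [CommRing B] [Algebra k B] (φ : A →ₐ[k] B) :
    E.CoordRing A →+* E.CoordRing B :=
  ((E.toCoord B : B ⊗[k] R →+* E.CoordRing B).comp
    (Algebra.TensorProduct.map φ (AlgHom.id k R)).toRingHom).comp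
    ((E.toCoord A).symm : E.CoordRing A →+* A ⊗[k] R)

theorem coordMap_coordInc {B : Type u} [CommRing B] [Algebra k B] (φ : A →ₐ[k] B) (r : R) :
    E.coordMap φ (E.coordInc A r) = E.coordInc B r := by
  change Algebra.TensorProduct.map φ (AlgHom.id k R) ((1 : A) ⊗ₜ[k] r) = (1 : B) ⊗ₜ[k] r
  simp

theorem coordMap_smul {B : Type u} [CommRing B] [Algebra k B] (φ : A →ₐ[k] B) (a : A)
    (x : E.CoordRing A) : E.coordMap φ (a • x) = φ a • E.coordMap φ x := by
  rw [Algebra.smul_def, Algebra.smul_def, map_mul]
  congr 1

theorem lmap_expA {B : Type u} [CommRing B] [Algebra k B] (φ : A →ₐ[k] B) (x : E.CoordRing A) :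
    lmap (φ : A →+* B) (E.expA A x) = E.expA B (E.coordMap φ x) := by
  induction x using coordRing_induction E A with
  | h a r =>
    rw [E.coordMap_smul, E.coordMap_coordInc, map_smul (E.expA A), lmap_smul, map_smul (E.expA B), E.expA_coordInc,
      E.expA_coordInc, E.lmap_emb]
    rfl
  | hadd x y hx hy => rw [map_add, map_add, map_add, map_add, hx, hy]

theorem coordMap_surjective {B : Type u} [CommRing B] [Algebra k B] (φ : A →ₐ[k] B)
    (hφ : Function.Surjective φ) : Function.Surjective (E.coordMap φ) := by
  intro x
  induction x using coordRing_induction E B with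
  | h b r =>
    obtain ⟨a, rfl⟩ := hφ b
    exact ⟨a • E.coordInc A r, by rw [E.coordMap_smul, E.coordMap_coordInc]⟩
  | hadd x y hx hy =>
    obtain ⟨a, rfl⟩ := hx
    obtain ⟨b, rfl⟩ := hy
    exact ⟨a + b, map_add _ _ _⟩

variable (A) in
theorem expA_injective : Function.Injective (E.expA A) := by
  rw [injective_iff_map_eq_zero]
  intro x hx
  obtain ⟨y, rfl⟩ := (E.toCoord A).surjective x
  suffices y = 0 by rw [this, map_zero]
  refine tensor_eq_zero_of_coeff (coeffFunctional E.e E.e_const)
    (fun r hr => E.injective (by ext i; rw [map_zero]; exact hr i)) A y fun i => ?_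
  have key : ∀ z : A ⊗[k] R, TensorProduct.rid k A ((coeffFunctional E.e E.e_const i).lTensor A z) =
      (E.expA A (E.toCoord A z)).coeff i := by
    intro z
    induction z using TensorProduct.induction_on with
    | zero => simp
    | tmul a r =>
      have : E.toCoord A (a ⊗ₜ r) = a • E.coordInc A r := by
        change (a ⊗ₜ[k] r : A ⊗[k] R) = a • ((1 : A) ⊗ₜ[k] r)
        rw [TensorProduct.smul_tmul', smul_eq_mul, mul_one]
      rw [this, map_smul (E.expA A), E.expA_coordInc, HahnSeries.coeff_smul, LinearMap.lTensor_tmul,
        TensorProduct.rid_tmul, Algebra.smul_def, smul_eq_mul, mul_comm]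
      rfl
    | add z z' h h' => simp only [map_add, HahnSeries.coeff_add, h, h']
  rw [key, hx, HahnSeries.coeff_zero]

end Expansion

end Fermat.Agent.Jac
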